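/-
GATE-K / K0 TATE-SIDE, brick S34-DENS (helper43).

Abstract form of statement S34 in the `TraceLevels` language of helper53's `GJ/Tate/S31Dens.lean`:
let `D` be levelwise Kummer/Tate data (bad set `B`, residue characteristic `p ∈ B`), `ρ` an adic
Galois representation over a Noetherian local ring `T` whose Frobenius characteristic polynomials
at `ℓ ∉ B` are `X² - π(T_ℓ) X + ℓ`.  If `σ ∈ G_ℚ` has trivial cyclotomic character modulo every
`p ^ n` and acts on every level with `(gal n σ - 1)² = 0`, then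

  `charpoly ρ(σ) = (X - 1)²`.

* trace: `exists_hecke_approx` gives `t ∈ 𝕋` with `tr ρ(σ) ≡ π t` and
  `hecke t = gal σ + gal σ⁻¹ = 2` (because `(x - 1)² = 0` gives `x + x⁻¹ = 2`); `faith` + Krull.
* determinant: FL1 on `(cyc mod p^n, ρ mod 𝔪^n)`: `det ρ(σ) ≡ ℓ ^ j ≡ cyc σ = 1`; Krull.

Applied to inertia at a prime `q ≠ p` (possibly in `B`): `ρ.IsUnipotentOnInertiaAt q`.
-/
import Fermat.Agent.GJ.Tate.S31Dens
import Fermat.Prelude.Def_GaloisRep_LocalConditions

set_option autoImplicit false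

open Polynomial Module IsLocalRing
open Fermat.Agent.Common_helper32 Fermat.Agent.GJ.Tate

namespace Fermat.Agent.GK.Tate

/-! ### rank-two linear algebra -/

section RankTwo

variable {A : Type*} [CommRing A] [Nontrivial A]
  {V : Type*} [AddCommGroup V] [Module A V] [Module.Free A V] [Module.Finite A V]

/-- The characteristic polynomial of an endomorphism of a free module of rank two. -/
theorem charpoly_eq_of_finrank_two (hV : finrank A V = 2) (f : Module.End A V) :
    f.charpoly = X ^ 2 - C (LinearMap.trace A V f) * X + C (LinearMap.det f) := by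
  classical
  have hcard : Fintype.card (Free.ChooseBasisIndex A V) = 2 := by
    rw [← finrank_eq_card_chooseBasisIndex, hV]
  let b : Basis (Fin 2) A V :=
    (Free.chooseBasis A V).reindex (Fintype.equivFinOfCardEq hcard)
  rw [← LinearMap.charpoly_toMatrix f b, Matrix.charpoly_fin_two,
    ← LinearMap.trace_eq_matrix_trace A b f, LinearMap.det_toMatrix b f]

/-- `tr = 2` and `det = 1` in rank two: the characteristic polynomial is `(X - 1)²`. -/
theorem charpoly_eq_sq_of_trace_det (hV : finrank A V = 2) (f : Module.End A V)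
    (htr : LinearMap.trace A V f = 2) (hdet : LinearMap.det f = 1) :
    f.charpoly = (X - 1) ^ 2 := by
  rw [charpoly_eq_of_finrank_two hV f, htr, hdet, map_one, map_ofNat]
  ring

/-- The determinant from a characteristic polynomial `X² - a X + d` in rank two. -/
theorem det_eq_of_charpoly_eq (hV : finrank A V = 2) (f : Module.End A V) (a d : A)
    (h : f.charpoly = X ^ 2 - C a * X + C d) : LinearMap.det f = d := by
  have h1 := congrArg (fun P : A[X] => P.coeff 0) (charpoly_eq_of_finrank_two hV f)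
  rw [h] at h1
  simp only [coeff_add, coeff_sub, coeff_X_pow, coeff_C_zero, mul_coeff_zero, coeff_X_zero,
    mul_zero, sub_zero] at h1
  simpa using h1.symm

end RankTwo

/-! ### unit with `(x - 1)² = 0` -/

section Unip

variable {E : Type*} [Ring E]

/-- If `x` is invertible with inverse `y` and `(x - 1)² = 0` then `x + y = 2`. -/
theorem add_inv_eq_two_of_sq_zero (x y : E) (hxy : x * y = 1)
    (h : (x - 1) * (x - 1) = 0) : x + y = 2 := by
  have h1 : (x - 1) * (x - 1) * y = 0 := by rw [h, zero_mul]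
  have h2 : (x - 1) * (x - 1) * y = x - 2 + y := by
    have e : (x - 1) * (x - 1) = x * x - 2 * x + 1 := by
      rw [sub_mul, mul_sub, mul_one, one_mul, two_mul]
      abel
    rw [e, add_mul, sub_mul, mul_assoc, mul_assoc, hxy, mul_one, mul_one, one_mul]
  rw [h2] at h1
  rw [← sub_eq_zero, ← h1]
  abel

end Unip

/-! ### the density argument -/

section Levels

variable {𝕋 : Type} [CommRing 𝕋] {Tl : ℕ → 𝕋} {B : Finset ℕ} {p : ℕ} [Fact p.Prime]
  (D : TraceLevels 𝕋 Tl B p) (hpB : p ∈ B)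
  {T : Type} [CommRing T] [IsLocalRing T]
  (π : 𝕋 →+* T) (ρ : GaloisRepAdic T)
  (hfrob : ∀ ℓ : ℕ, ℓ.Prime → ℓ ∉ B → ∀ A : ValuationSubring Qb, A.LiesOverPrime ℓ →
    ∀ σ : GQ, A.IsFrobeniusAt σ ℓ →
      LinearMap.charpoly (ρ.ρ σ) = X ^ 2 - C (π (Tl ℓ)) * X + C ((ℓ : T)))

include D hpB hfrob in
/-- **S34-DENS, trace**: `tr ρ(σ) = 2` if `σ` has trivial cyclotomic character and
`(gal n σ - 1)² = 0` at every level. -/
theorem trace_eq_two_of_ss [IsNoetherianRing T] (hpT : (p : T) ∈ maximalIdeal T) (σ : GQ)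
    (hcyc : ∀ n, cycMod p n σ = 1)
    (hss : ∀ n, (D.gal n σ - 1) * (D.gal n σ - 1) = 0) :
    ρ.trace σ = 2 := by
  rw [← sub_eq_zero]
  have hmem : ρ.trace σ - 2 ∈ (⨅ n : ℕ, maximalIdeal T ^ n) := by
    rw [Ideal.mem_iInf]
    intro n
    obtain ⟨c, hc⟩ := D.faith
    obtain ⟨t, a, ht1, ht2, ht3⟩ := exists_hecke_approx D hpB π ρ hfrob n (n + c) σ
    have ha : (a : D.E (n + c)) = 1 := by
      have h1 : (a : ZMod (p ^ (n + c))) = ((1 : ℕ) : ZMod (p ^ (n + c))) := by
        rw [← ht3, hcyc (n + c), Units.val_one, Nat.cast_one]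
      have h2 := natCast_eq_of_zmod_eq (D.tors (n + c)) h1
      rwa [Nat.cast_one] at h2
    have hxy : D.gal (n + c) σ * D.gal (n + c) σ⁻¹ = 1 := by
      rw [← map_mul, mul_inv_cancel, map_one]
    have h2 : D.hecke (n + c) t = 2 := by
      rw [ht2, ha, one_mul]
      exact add_inv_eq_two_of_sq_zero _ _ hxy (hss (n + c))
    have hker : D.hecke (n + c) (t - 2) = 0 := by
      rw [map_sub, h2, map_ofNat, sub_self]
    obtain ⟨t'', ht''⟩ := hc n (t - 2) hker
    have hπ : π t - 2 ∈ maximalIdeal T ^ n := by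
      have e : π t - 2 = π (t - 2) := by rw [map_sub, map_ofNat]
      rw [e, ht'', map_nsmul, nsmul_eq_mul, Nat.cast_pow]
      exact Ideal.mul_mem_right _ _ (Ideal.pow_mem_pow hpT n)
    have e : ρ.trace σ - 2 = (ρ.trace σ - π t) + (π t - 2) := by ring
    rw [e]
    exact Ideal.add_mem _ ht1 hπ
  rw [Ideal.iInf_pow_eq_bot_of_isLocalRing _ (maximalIdeal.isMaximal T).ne_top] at hmem
  exact hmem

open Carayol in
theorem det_redMat {T' : Type*} [CommRing T'] (I : Ideal T') {V : Type*} [AddCommGroup V]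
    [Module T' V] [Module.Free T' V] [Module.Finite T' V] (f : Module.End T' V) :
    Matrix.det (redMat I V f) = Ideal.Quotient.mk I (LinearMap.det f) := by
  classical
  rw [← LinearMap.det_toMatrix (Free.chooseBasis T' V) f, RingHom.map_det]
  rfl

include hpB hfrob in
open Carayol in
/-- **S34-DENS, determinant**: `det ρ(σ) = 1` if `σ` has trivial cyclotomic character modulo every
`p ^ n`. -/
theorem det_eq_one_of_cyc [IsNoetherianRing T] (hpT : (p : T) ∈ maximalIdeal T) (σ : GQ)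
    (hcyc : ∀ n, cycMod p n σ = 1) :
    LinearMap.det (ρ.ρ σ) = 1 := by
  rw [← sub_eq_zero]
  have hmem : LinearMap.det (ρ.ρ σ) - 1 ∈ (⨅ n : ℕ, maximalIdeal T ^ n) := by
    rw [Ideal.mem_iInf]
    intro n
    obtain ⟨ℓ, A, τ, j, hℓ, hℓB, hA, hτ, hpow⟩ :=
      Fermat.Agent.GJ.FrobLift.exists_isFrobeniusAt_pow'
        ((cycMod p n).prod (redRho ρ n))
        (factorsThroughFiniteLevel_prod (cycMod_level p n) (redRho_factors ρ n)) B σ
    rw [MonoidHom.prod_apply, MonoidHom.prod_apply, Prod.pow_mk, Prod.mk.injEq] at hpow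
    obtain ⟨h2, h3⟩ := hpow
    have hℓp : ℓ ≠ p := fun h => hℓB (h ▸ hpB)
    -- `ℓ ^ j ≡ 1 mod p ^ n`
    have hcycl : ((ℓ ^ j : ℕ) : ZMod (p ^ n)) = ((1 : ℕ) : ZMod (p ^ n)) := by
      have h4 : ((cycMod p n σ : (ZMod (p ^ n))ˣ) : ZMod (p ^ n)) =
          ((cycMod p n τ ^ j : (ZMod (p ^ n))ˣ) : ZMod (p ^ n)) := congrArg Units.val h2
      rw [hcyc n, Units.val_one, Units.val_pow_eq_pow_val,
        cycMod_frob p n A ℓ hℓ hA hℓp τ hτ] at h4
      rw [Nat.cast_pow, ← h4, Nat.cast_one]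
    have hlj : ((ℓ ^ j : ℕ) : T) - 1 ∈ maximalIdeal T ^ n := by
      have h5 : (p ^ n : ℤ) ∣ ((1 : ℕ) : ℤ) - ((ℓ ^ j : ℕ) : ℤ) := by
        have := (ZMod.natCast_eq_natCast_iff (ℓ ^ j) 1 (p ^ n)).mp hcycl
        have h6 := (Nat.modEq_iff_dvd).mp this
        exact_mod_cast h6
      obtain ⟨k, hk⟩ := h5
      have h7 : ((ℓ ^ j : ℕ) : T) - 1 = -((p : T) ^ n * (k : T)) := by
        have := congrArg (fun z : ℤ => (z : T)) hk
        simp only [Int.cast_sub, Int.cast_natCast, Int.cast_mul, Int.cast_pow] at this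
        rw [Nat.cast_one] at this
        rw [← this]
        ring
      rw [h7]
      exact neg_mem (Ideal.mul_mem_right _ _ (Ideal.pow_mem_pow hpT n))
    -- `det ρ(σ) ≡ det ρ(τ) ^ j = ℓ ^ j`
    rw [redRho_apply, redRho_apply] at h3
    have t1 := congrArg Matrix.det h3
    rw [Matrix.det_pow, det_redMat, det_redMat,
      det_eq_of_charpoly_eq ρ.finrank_eq (ρ.ρ τ) _ _ (hfrob ℓ hℓ hℓB A hA τ hτ), ← map_pow]
      at t1
    have hdet : LinearMap.det (ρ.ρ σ) - ((ℓ : T)) ^ j ∈ maximalIdeal T ^ n :=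
      Ideal.Quotient.eq.mp t1
    have e : LinearMap.det (ρ.ρ σ) - 1 =
        (LinearMap.det (ρ.ρ σ) - ((ℓ : T)) ^ j) + (((ℓ ^ j : ℕ) : T) - 1) := by
      rw [Nat.cast_pow]
      ring
    rw [e]
    exact Ideal.add_mem _ hdet hlj
  rw [Ideal.iInf_pow_eq_bot_of_isLocalRing _ (maximalIdeal.isMaximal T).ne_top] at hmem
  exact hmem

include D hpB hfrob in
/-- **S34-DENS**: `charpoly ρ(σ) = (X - 1)²`. -/
theorem charpoly_eq_of_ss [IsNoetherianRing T] (hpT : (p : T) ∈ maximalIdeal T) (σ : GQ)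
    (hcyc : ∀ n, cycMod p n σ = 1)
    (hss : ∀ n, (D.gal n σ - 1) * (D.gal n σ - 1) = 0) :
    LinearMap.charpoly (ρ.ρ σ) = (X - 1) ^ 2 :=
  charpoly_eq_sq_of_trace_det ρ.finrank_eq (ρ.ρ σ)
    (trace_eq_two_of_ss D hpB π ρ hfrob hpT σ hcyc hss)
    (det_eq_one_of_cyc hpB π ρ hfrob hpT σ hcyc)

include D hpB hfrob in
/-- **S34, abstract form**: `ρ` is unipotent on inertia at a prime `q ≠ p` (allowed in the bad set)
as soon as inertia at `q` acts on every level with `(gal n σ - 1)² = 0`. -/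
theorem isUnipotentOnInertiaAt_of_traceLevels [IsNoetherianRing T]
    (hpT : (p : T) ∈ maximalIdeal T) (q : ℕ) (hq : q.Prime) (hqp : q ≠ p)
    (hss : ∀ n (P : ValuationSubring Qb), P.LiesOverPrime q → ∀ σ ∈ P.inertiaSubgroupIn ℚ,
      (D.gal n σ - 1) * (D.gal n σ - 1) = 0) :
    ρ.IsUnipotentOnInertiaAt q :=
  fun P hP σ hσ => charpoly_eq_of_ss D hpB π ρ hfrob hpT σ
    (fun n => cycMod_inertia p n P q hq hP hqp σ hσ) (fun n => hss n P hP σ hσ)

end Levels

end Fermat.Agent.GK.Tate
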