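/-
GATE-K / K6 TATE-SIDE, brick S35-DENS (helper27).

Abstract form of clause 2 of statement S35 in the `TraceLevels` language of helper53's
`GJ/Tate/S31Dens.lean` (same set-up as helper43's `GK/Tate/S34Dens.lean`): let `D` be levelwise
Kummer/Tate data (bad set `B`, residue characteristic `p ∈ B`), `ρ` an adic Galois representation
over a Noetherian local DOMAIN `T` whose Frobenius characteristic polynomials at `ℓ ∉ B` are
`X² - π(T_ℓ) X + ℓ`.  Let `φ ∈ G_ℚ` have cyclotomic character `q` modulo every `p ^ n`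
(a Frobenius lift at `q ≠ p`, `q` possibly in `B`), and let `s ∈ 𝕋` with `π s ≠ 0` satisfy the
**Frobenius gate**

  `(φ² - q²) (φ² - 1) · s = 0`   on every level `n`.

Then `det ρ(φ) = q`, `tr ρ(φ) = ± (q + 1)`, i.e.

  `charpoly ρ(φ) = X² - (q + 1) X + q`  or  `X² + (q + 1) X + q`.

* determinant: FL1 on `(cyc mod p^n, ρ mod 𝔪^n)` (as in `S34Dens.det_eq_one_of_cyc`).
* trace: `exists_hecke_approx` gives `t ∈ 𝕋` with `tr ρ(φ) ≡ π t` and `h := hecke t = φ + q φ⁻¹`;
  the identity `(φ² - q²)(φ² - 1) = (h² - (q + 1)²) φ²` turns the gate into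
  `hecke (s (t² - (q + 1)²)) = 0`; `faith` + Krull give `π s (tr² - (q + 1)²) = 0`.

No commutation between the Hecke and the Galois action is used, no irreducibility.
-/
import Fermat.Agent.GK.Tate.S34Dens

set_option autoImplicit false

open Polynomial Module IsLocalRing
open Fermat.Agent.Common_helper32 Fermat.Agent.GJ.Tate

namespace Fermat.Agent.GK.Tate

/-! ### the quartic identity -/

section Quartic

variable {E : Type*} [Ring E]

/-- If `x` is invertible with inverse `y` and `h = x + q y`, then `h x = x² + q`. -/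
theorem frob_mul_eq (x y h : E) (q : ℕ) (hyx : y * x = 1) (hh : h = x + (q : E) * y) :
    h * x = x * x + (q : E) := by
  rw [hh, add_mul, mul_assoc, hyx, mul_one]

/-- If `x` is invertible with inverse `y` and `h = x + q y`, then `x h = x² + q`. -/
theorem mul_frob_eq (x y h : E) (q : ℕ) (hxy : x * y = 1) (hh : h = x + (q : E) * y) :
    x * h = x * x + (q : E) := by
  rw [hh, mul_add, ← mul_assoc, ← (Nat.cast_commute q x).eq, mul_assoc, hxy, mul_one]

/-- **The quartic identity**: with `h = x + q x⁻¹`,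
`(x² - q²)(x² - 1) = (h² - (q + 1)²) x²`. -/
theorem frob_quartic (x y h : E) (q : ℕ) (hyx : y * x = 1) (hh : h = x + (q : E) * y) :
    (x * x - (q : E) ^ 2) * (x * x - 1) = (h * h - ((q : E) + 1) ^ 2) * (x * x) := by
  have h1 := frob_mul_eq x y h q hyx hh
  have hq : ∀ z : E, (q : E) * z = z * (q : E) := fun z => (Nat.cast_commute q z).eq
  have h2 : h * h * (x * x) = (x * x + (q : E)) * (x * x + (q : E)) := by
    calc h * h * (x * x) = h * (h * x) * x := by simp only [mul_assoc]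
      _ = h * (x * x + (q : E)) * x := by rw [h1]
      _ = (h * x) * x * x + (q : E) * (h * x) := by
        rw [mul_add, add_mul, ← hq h]
        simp only [mul_assoc]
      _ = (x * x + (q : E)) * x * x + (q : E) * (x * x + (q : E)) := by rw [h1]
      _ = (x * x + (q : E)) * (x * x + (q : E)) := by
        rw [mul_add (x * x + (q : E)), hq (x * x + (q : E)), mul_assoc]
  have e0 : (h * h - ((q : E) + 1) ^ 2) * (x * x) =
      h * h * (x * x) - ((q : E) + 1) ^ 2 * (x * x) := sub_mul _ _ _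
  rw [e0, h2]
  have e1 : ((q : E) + 1) ^ 2 * (x * x) = (q : E) ^ 2 * (x * x) + 2 * ((q : E) * (x * x)) + x * x := by
    rw [pow_two, pow_two]
    noncomm_ring
  have e2 : (x * x + (q : E)) * (x * x + (q : E)) =
      x * x * (x * x) + 2 * ((q : E) * (x * x)) + (q : E) ^ 2 := by
    rw [add_mul, mul_add, mul_add, ← hq (x * x), pow_two]
    noncomm_ring
  have e3 : (x * x - (q : E) ^ 2) * (x * x - 1) =
      x * x * (x * x) - (q : E) ^ 2 * (x * x) - x * x + (q : E) ^ 2 := by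
    noncomm_ring
  rw [e1, e2, e3]
  abel

end Quartic

/-! ### the density argument -/

section Levels

variable {𝕋 : Type} [CommRing 𝕋] {Tl : ℕ → 𝕋} {B : Finset ℕ} {p : ℕ} [Fact p.Prime]
  (D : TraceLevels 𝕋 Tl B p) (hpB : p ∈ B)
  {T : Type} [CommRing T] [IsLocalRing T]
  (π : 𝕋 →+* T) (ρ : GaloisRepAdic T)
  (hfrob : ∀ ℓ : ℕ, ℓ.Prime → ℓ ∉ B → ∀ A : ValuationSubring Qb, A.LiesOverPrime ℓ →
    ∀ σ : GQ, A.IsFrobeniusAt σ ℓ →
      LinearMap.charpoly (ρ.ρ σ) = X ^ 2 - C (π (Tl ℓ)) * X + C ((ℓ : T)))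

omit [Fact p.Prime] in
/-- `p ^ n ∣ a - b` in `ℤ` gives `a - b ∈ 𝔪 ^ n` in `T`. -/
theorem natCast_sub_mem_of_zmod_eq (hpT : (p : T) ∈ maximalIdeal T) {n a b : ℕ}
    (h : (a : ZMod (p ^ n)) = (b : ZMod (p ^ n))) :
    (a : T) - (b : T) ∈ maximalIdeal T ^ n := by
  have h5 : (p ^ n : ℤ) ∣ (b : ℤ) - (a : ℤ) := by
    have h6 := (Nat.modEq_iff_dvd).mp ((ZMod.natCast_eq_natCast_iff a b (p ^ n)).mp h)
    exact_mod_cast h6
  obtain ⟨k, hk⟩ := h5
  have h7 : (a : T) - (b : T) = -((p : T) ^ n * (k : T)) := by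
    have := congrArg (fun z : ℤ => (z : T)) hk
    simp only [Int.cast_sub, Int.cast_natCast, Int.cast_mul, Int.cast_pow] at this
    rw [← this]
    ring
  rw [h7]
  exact neg_mem (Ideal.mul_mem_right _ _ (Ideal.pow_mem_pow hpT n))

include hpB hfrob in
open Carayol in
/-- **S35-DENS, determinant**: `det ρ(σ) = c` if `σ` has cyclotomic character `c` modulo every
`p ^ n`. -/
theorem det_eq_of_cyc [IsNoetherianRing T] (hpT : (p : T) ∈ maximalIdeal T) (σ : GQ) (c : ℕ)
    (hcyc : ∀ n, ((cycMod p n σ : (ZMod (p ^ n))ˣ) : ZMod (p ^ n)) = (c : ZMod (p ^ n))) :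
    LinearMap.det (ρ.ρ σ) = (c : T) := by
  rw [← sub_eq_zero]
  have hmem : LinearMap.det (ρ.ρ σ) - (c : T) ∈ (⨅ n : ℕ, maximalIdeal T ^ n) := by
    rw [Ideal.mem_iInf]
    intro n
    obtain ⟨ℓ, A, τ, j, hℓ, hℓB, hA, hτ, hpow⟩ :=
      Fermat.Agent.GJ.FrobLift.exists_isFrobeniusAt_pow'
        ((cycMod p n).prod (redRho ρ n))
        (factorsThroughFiniteLevel_prod (cycMod_level p n) (redRho_factors ρ n)) B σ
    rw [MonoidHom.prod_apply, MonoidHom.prod_apply, Prod.pow_mk, Prod.mk.injEq] at hpow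
    obtain ⟨h2, h3⟩ := hpow
    have hℓp : ℓ ≠ p := fun h => hℓB (h ▸ hpB)
    -- `ℓ ^ j ≡ c mod p ^ n`
    have hcycl : ((ℓ ^ j : ℕ) : ZMod (p ^ n)) = (c : ZMod (p ^ n)) := by
      have h4 : ((cycMod p n σ : (ZMod (p ^ n))ˣ) : ZMod (p ^ n)) =
          ((cycMod p n τ ^ j : (ZMod (p ^ n))ˣ) : ZMod (p ^ n)) := congrArg Units.val h2
      rw [hcyc n, Units.val_pow_eq_pow_val, cycMod_frob p n A ℓ hℓ hA hℓp τ hτ] at h4
      rw [Nat.cast_pow, ← h4]
    have hlj : ((ℓ ^ j : ℕ) : T) - (c : T) ∈ maximalIdeal T ^ n :=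
      natCast_sub_mem_of_zmod_eq hpT hcycl
    -- `det ρ(σ) ≡ det ρ(τ) ^ j = ℓ ^ j`
    rw [redRho_apply, redRho_apply] at h3
    have t1 := congrArg Matrix.det h3
    rw [Matrix.det_pow, det_redMat, det_redMat,
      det_eq_of_charpoly_eq ρ.finrank_eq (ρ.ρ τ) _ _ (hfrob ℓ hℓ hℓB A hA τ hτ), ← map_pow]
      at t1
    have hdet : LinearMap.det (ρ.ρ σ) - ((ℓ : T)) ^ j ∈ maximalIdeal T ^ n :=
      Ideal.Quotient.eq.mp t1
    have e : LinearMap.det (ρ.ρ σ) - (c : T) =
        (LinearMap.det (ρ.ρ σ) - ((ℓ : T)) ^ j) + (((ℓ ^ j : ℕ) : T) - (c : T)) := by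
      rw [Nat.cast_pow]
      ring
    rw [e]
    exact Ideal.add_mem _ hdet hlj
  rw [Ideal.iInf_pow_eq_bot_of_isLocalRing _ (maximalIdeal.isMaximal T).ne_top] at hmem
  exact hmem

include D hpB hfrob in
/-- **S35-DENS, trace (annihilator form)**: if `(φ² - q²)(φ² - 1) · s = 0` on every level and `φ`
has cyclotomic character `q`, then `π s · (tr ρ(φ)² - (q + 1)²) = 0`. -/
theorem smul_trace_sq_sub_eq_zero [IsNoetherianRing T] (hpT : (p : T) ∈ maximalIdeal T) (φ : GQ)
    (q : ℕ)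
    (hcyc : ∀ n, ((cycMod p n φ : (ZMod (p ^ n))ˣ) : ZMod (p ^ n)) = (q : ZMod (p ^ n)))
    (s : 𝕋)
    (hgate : ∀ n, (D.gal n φ * D.gal n φ - (q : D.E n) ^ 2) * (D.gal n φ * D.gal n φ - 1) *
      D.hecke n s = 0) :
    π s * (ρ.trace φ ^ 2 - ((q : T) + 1) ^ 2) = 0 := by
  have hmem : π s * (ρ.trace φ ^ 2 - ((q : T) + 1) ^ 2) ∈ (⨅ n : ℕ, maximalIdeal T ^ n) := by
    rw [Ideal.mem_iInf]
    intro n
    obtain ⟨c, hc⟩ := D.faith
    obtain ⟨t, a, ht1, ht2, ht3⟩ := exists_hecke_approx D hpB π ρ hfrob n (n + c) φ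
    have ha : (a : D.E (n + c)) = (q : D.E (n + c)) :=
      natCast_eq_of_zmod_eq (D.tors (n + c)) (by rw [← ht3, hcyc (n + c)])
    set x := D.gal (n + c) φ with hx
    set y := D.gal (n + c) φ⁻¹ with hy
    have hxy : x * y = 1 := by rw [hx, hy, ← map_mul, mul_inv_cancel, map_one]
    have hyx : y * x = 1 := by rw [hx, hy, ← map_mul, inv_mul_cancel, map_one]
    have hh : D.hecke (n + c) t = x + (q : D.E (n + c)) * y := by rw [ht2, ha]
    have hquart := frob_quartic x y (D.hecke (n + c) t) q hyx hh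
    -- the gate gives `hecke ((t² - (q+1)²) s) = 0`
    have hker : D.hecke (n + c) ((t * t - ((q : 𝕋) + 1) ^ 2) * s) = 0 := by
      have h1 := hgate (n + c)
      rw [hquart] at h1
      have h2 : (y * y) * ((D.hecke (n + c) t * D.hecke (n + c) t - ((q : D.E (n + c)) + 1) ^ 2) *
          (x * x) * D.hecke (n + c) s) = 0 := by rw [h1, mul_zero]
      -- `h` commutes with `x` and `y`
      have hcx : D.hecke (n + c) t * x = x * D.hecke (n + c) t := by
        rw [frob_mul_eq x y _ q hyx hh, mul_frob_eq x y _ q hxy hh]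
      have hcy : y * D.hecke (n + c) t = D.hecke (n + c) t * y := by
        calc y * D.hecke (n + c) t = y * D.hecke (n + c) t * (x * y) := by rw [hxy, mul_one]
          _ = y * (D.hecke (n + c) t * x) * y := by simp only [mul_assoc]
          _ = y * (x * D.hecke (n + c) t) * y := by rw [hcx]
          _ = (y * x) * D.hecke (n + c) t * y := by simp only [mul_assoc]
          _ = D.hecke (n + c) t * y := by rw [hyx, one_mul]
      have hcq : ∀ z : D.E (n + c), z * ((q : D.E (n + c)) + 1) ^ 2 =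
          ((q : D.E (n + c)) + 1) ^ 2 * z := by
        intro z
        have : ((q : D.E (n + c)) + 1) ^ 2 = ((((q + 1) ^ 2 : ℕ)) : D.E (n + c)) := by
          push_cast
          rfl
        rw [this]
        exact ((Nat.cast_commute _ z).eq).symm
      set H := D.hecke (n + c) t * D.hecke (n + c) t - ((q : D.E (n + c)) + 1) ^ 2 with hH
      have hcyH : y * H = H * y := by
        rw [hH, mul_sub, sub_mul, hcq y]
        congr 1
        rw [← mul_assoc, hcy, mul_assoc, hcy, ← mul_assoc]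
      have h3 : (y * y) * (H * (x * x) * D.hecke (n + c) s) = H * D.hecke (n + c) s := by
        calc (y * y) * (H * (x * x) * D.hecke (n + c) s)
            = y * (y * H) * (x * x) * D.hecke (n + c) s := by simp only [mul_assoc]
          _ = y * (H * y) * (x * x) * D.hecke (n + c) s := by rw [hcyH]
          _ = (y * H) * (y * x) * x * D.hecke (n + c) s := by simp only [mul_assoc]
          _ = (H * y) * x * D.hecke (n + c) s := by rw [hyx, mul_one, hcyH]
          _ = H * (y * x) * D.hecke (n + c) s := by simp only [mul_assoc]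
          _ = H * D.hecke (n + c) s := by rw [hyx, mul_one]
      rw [h3] at h2
      rw [map_mul, map_sub, map_mul, map_pow, map_add, map_natCast, map_one]
      exact h2
    obtain ⟨t'', ht''⟩ := hc n _ hker
    have hπ : (π t * π t - ((q : T) + 1) ^ 2) * π s ∈ maximalIdeal T ^ n := by
      have e : (π t * π t - ((q : T) + 1) ^ 2) * π s =
          π ((t * t - ((q : 𝕋) + 1) ^ 2) * s) := by
        rw [map_mul, map_sub, map_mul, map_pow, map_add, map_natCast, map_one]
      rw [e, ht'', map_nsmul, nsmul_eq_mul, Nat.cast_pow]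
      exact Ideal.mul_mem_right _ _ (Ideal.pow_mem_pow hpT n)
    have e : π s * (ρ.trace φ ^ 2 - ((q : T) + 1) ^ 2) =
        π s * (ρ.trace φ + π t) * (ρ.trace φ - π t) +
          (π t * π t - ((q : T) + 1) ^ 2) * π s := by ring
    rw [e]
    exact Ideal.add_mem _ (Ideal.mul_mem_left _ _ ht1) hπ
  rw [Ideal.iInf_pow_eq_bot_of_isLocalRing _ (maximalIdeal.isMaximal T).ne_top] at hmem
  exact hmem

include D hpB hfrob in
/-- **S35-DENS, trace**: `tr ρ(φ) = ± (q + 1)` over a domain, if `π s ≠ 0`. -/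
theorem trace_eq_or_of_frobGate [IsNoetherianRing T] [IsDomain T]
    (hpT : (p : T) ∈ maximalIdeal T) (φ : GQ) (q : ℕ)
    (hcyc : ∀ n, ((cycMod p n φ : (ZMod (p ^ n))ˣ) : ZMod (p ^ n)) = (q : ZMod (p ^ n)))
    (s : 𝕋) (hs : π s ≠ 0)
    (hgate : ∀ n, (D.gal n φ * D.gal n φ - (q : D.E n) ^ 2) * (D.gal n φ * D.gal n φ - 1) *
      D.hecke n s = 0) :
    ρ.trace φ = (q : T) + 1 ∨ ρ.trace φ = -((q : T) + 1) := by
  have h := smul_trace_sq_sub_eq_zero D hpB π ρ hfrob hpT φ q hcyc s hgate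
  rcases mul_eq_zero.mp h with h1 | h1
  · exact absurd h1 hs
  · exact sq_eq_sq_iff_eq_or_eq_neg.mp (sub_eq_zero.mp h1)

include D hpB hfrob in
/-- **S35-DENS**: `charpoly ρ(φ) = X² ∓ (q + 1) X + q`. -/
theorem charpoly_eq_or_of_frobGate [IsNoetherianRing T] [IsDomain T]
    (hpT : (p : T) ∈ maximalIdeal T) (φ : GQ) (q : ℕ)
    (hcyc : ∀ n, ((cycMod p n φ : (ZMod (p ^ n))ˣ) : ZMod (p ^ n)) = (q : ZMod (p ^ n)))
    (s : 𝕋) (hs : π s ≠ 0)
    (hgate : ∀ n, (D.gal n φ * D.gal n φ - (q : D.E n) ^ 2) * (D.gal n φ * D.gal n φ - 1) *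
      D.hecke n s = 0) :
    LinearMap.charpoly (ρ.ρ φ) = X ^ 2 - C ((q : T) + 1) * X + C ((q : T)) ∨
    LinearMap.charpoly (ρ.ρ φ) = X ^ 2 + C ((q : T) + 1) * X + C ((q : T)) := by
  have hdet := det_eq_of_cyc hpB π ρ hfrob hpT φ q hcyc
  have hcp := charpoly_eq_of_finrank_two ρ.finrank_eq (ρ.ρ φ)
  rcases trace_eq_or_of_frobGate D hpB π ρ hfrob hpT φ q hcyc s hs hgate with h | h
  · left
    rw [hcp, hdet]
    have : LinearMap.trace T ρ.V (ρ.ρ φ) = (q : T) + 1 := h
    rw [this]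
  · right
    rw [hcp, hdet]
    have : LinearMap.trace T ρ.V (ρ.ρ φ) = -((q : T) + 1) := h
    rw [this, map_neg, neg_mul, sub_neg_eq_add]

end Levels

end Fermat.Agent.GK.Tate
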