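/-
GATE-K / K0 TATE-SIDE, S34 TOP (helper43).

`s34_of_gates : K18sPow → TowerGate N S p → (∀ n, SSGate N q (p ^ n)) → (frozen S34 conclusion)`.

* `K18sPow`, `TowerGate N S p` : the two gates of helper53's `GJ/Tate/S31Top.lean` (both are
  theorems on main by now: J1's `k18sPow` and J2's tower);
* `SSGate N q m` : **the semistability gate** — every `σ` in an inertia group over `q` acts on the
  Kummer group `Kum_m(F_N)` (`= J₀(N)[m]`) with `(σ - 1)² = 0`
  (`KumType.gal N m σ : Module.End (ZMod m) (Additive (Kum ℚ̄ F_N m))`).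
  `SSGate2` is the two-element form `(τ - 1)(σ - 1) = 0` of report 202; it implies `SSGate`.

The proof is helper53's trace-density machinery (`S31Dens.exists_hecke_approx`) with the extra
input `(σ - 1)² = 0`, see `GK/Tate/S34Dens.lean`.
-/
import Fermat.Agent.GK.Tate.S34Dens
import Fermat.Agent.GJ.Tate.S31Top

set_option autoImplicit false

open CuspForm

namespace Fermat.Agent.GK.Tate

open Fermat.Agent.GJ.KumGroup Fermat.Agent.GJ.Kum.KumType Fermat.Agent.GJ.J4Asm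
open Fermat.Agent.GJ.Tate Fermat.Agent.GJ.Tate.S31Top
open Fermat.Agent.GJ.KumFinal (hnMemHyp hnDivHyp)

/-- `ℚ̄`. -/
local notation "Qb" => AlgebraicClosure ℚ

/-- **The semistability gate** at level `N`, prime `q`, modulus `m`: inertia at `q` acts on
`Kum_m(F_N)` with `(σ - 1)² = 0`. -/
def SSGate (N : ℕ) [NeZero N] (q m : ℕ) : Prop :=
  ∀ A : ValuationSubring Qb, A.LiesOverPrime q → ∀ σ ∈ A.inertiaSubgroupIn ℚ,
    (gal N m σ - 1) * (gal N m σ - 1) = 0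

/-- The two-element form: `(τ - 1)(σ - 1) = 0` for `σ, τ` in one inertia group over `q`. -/
def SSGate2 (N : ℕ) [NeZero N] (q m : ℕ) : Prop :=
  ∀ A : ValuationSubring Qb, A.LiesOverPrime q → ∀ σ ∈ A.inertiaSubgroupIn ℚ,
    ∀ τ ∈ A.inertiaSubgroupIn ℚ, (gal N m τ - 1) * (gal N m σ - 1) = 0

theorem ssGate_of_ssGate2 {N : ℕ} [NeZero N] {q m : ℕ} (h : SSGate2 N q m) : SSGate N q m :=
  fun A hA σ hσ => h A hA σ hσ σ hσ

/-- elementwise form of `SSGate`: `σ (σ x) - 2 σ x + x = 0`, i.e. `σ (σ x) + x = σ x + σ x`. -/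
theorem ssGate_iff {N : ℕ} [NeZero N] {q m : ℕ} :
    SSGate N q m ↔ ∀ A : ValuationSubring Qb, A.LiesOverPrime q →
      ∀ σ ∈ A.inertiaSubgroupIn ℚ, ∀ x : Additive (Kum Qb (FK N) m),
        gal N m σ (gal N m σ x) + x = gal N m σ x + gal N m σ x := by
  have key : ∀ (g : Module.End (ZMod m) (Additive (Kum Qb (FK N) m))),
      (g - 1) * (g - 1) = 0 ↔ ∀ x, g (g x) + x = g x + g x := by
    intro g
    constructor
    · intro h x
      have h1 := LinearMap.congr_fun h x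
      simp only [Module.End.mul_apply, LinearMap.sub_apply, Module.End.one_apply, map_sub,
        LinearMap.zero_apply] at h1
      have e : g (g x) + x - (g x + g x) = g (g x) - g x - (g x - x) := by abel
      rw [← sub_eq_zero, e, h1]
    · intro h
      refine LinearMap.ext fun x => ?_
      simp only [Module.End.mul_apply, LinearMap.sub_apply, Module.End.one_apply, map_sub,
        LinearMap.zero_apply]
      have e : g (g x) - g x - (g x - x) = g (g x) + x - (g x + g x) := by abel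
      rw [e, sub_eq_zero]
      exact h x
  constructor
  · intro h A hA σ hσ
    exact (key _).mp (h A hA σ hσ)
  · intro h A hA σ hσ
    exact (key _).mpr (h A hA σ hσ)

variable {p : ℕ} {N : ℕ} [NeZero N] {S : Finset ℕ}

/-- The Kummer level data from the two gates of S31, together with `(σ - 1)² = 0` on inertia at
`q` from the semistability gate. -/
theorem exists_kumLevelData_ss (hK : K18sPow) (hT : TowerGate N S p) (hp : p.Prime)
    (hpS : p ∈ S) (hNS : ∀ q : ℕ, q.Prime → q ∣ N → q ∈ S) (q : ℕ)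
    (hSS : ∀ n : ℕ, SSGate N q (p ^ n)) :
    ∃ D : KumLevelData N S p, ∀ (n : ℕ) (P : ValuationSubring Qb), P.LiesOverPrime q →
      ∀ σ ∈ P.inertiaSubgroupIn ℚ, (D.gal n σ - 1) * (D.gal n σ - 1) = 0 := by
  obtain ⟨Λ, _, _, _, act, hact, hΘall⟩ := hT
  choose Θ hsurj hker hrel using hΘall
  have hpos : ∀ n : ℕ, 0 < p ^ n := fun n => pow_pos hp.pos n
  refine ⟨KumLevelData.ofKumModels hp hpS hNS Λ act hact
    (fun n => kumModelPow N hK (p ^ n) (hpos n)) Θ hsurj hker ?_, ?_⟩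
  · intro n ℓ hℓ hℓS x
    have hℓN : ¬ ℓ ∣ N := fun h => hℓS (hNS ℓ hℓ h)
    have hℓS' : ℓ ∉ (↑S : Set ℕ) := by simpa using hℓS
    have : NeZero ℓ := ⟨hℓ.ne_zero⟩
    obtain ⟨u, hu⟩ := exists_rep (K := Qb) (F := FK N) (p := p ^ n) (Θ n x)
    set hM := hnMemHyp N hℓ hℓN with hMdef
    set hD := hnDivHyp N (p ^ n) hℓ hℓN with hDdef
    set u' : pDivUnits Qb (FK N) (p ^ n) :=
      ⟨heckeUnits hM u, heckeUnits_mem hM hD u u.2⟩ with hu'
    have h1 := hrel n ℓ hℓ hℓN hℓS' x u u' hu rfl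
    have h2 := kumModel_T_cls_of_eq (p := p ^ n) (fun _ hℓ hℓN => hnMemHyp N hℓ hℓN)
      (fun _ hℓ hℓN => hnDivHyp N (p ^ n) hℓ hℓN)
      (fun _ hℓ hℓNm => (es_hyps_pow N hK (hpos n) hℓ hℓNm).1)
      (fun _ hℓ hℓNm => (es_hyps_pow N hK (hpos n) hℓ hℓNm).2) hℓ hℓN u u' rfl
    rw [heckeTl_eq hℓ hℓN hℓS']
    exact h1.trans (h2.symm.trans (congrArg ((kumModelPow N hK (p ^ n) (hpos n)).T ℓ) hu).symm)
  · intro n P hP σ hσ
    have h := hSS n P hP σ hσ
    show (endToAddEnd (ZMod (p ^ n)) (Additive (Kum Qb (FK N) (p ^ n))) (gal N (p ^ n) σ) - 1) *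
        (endToAddEnd (ZMod (p ^ n)) (Additive (Kum Qb (FK N) (p ^ n))) (gal N (p ^ n) σ) - 1) = 0
    rw [← map_one (endToAddEnd (ZMod (p ^ n)) (Additive (Kum Qb (FK N) (p ^ n)))), ← map_sub,
      ← map_mul, h, map_zero]

variable {𝒪 : Type} [CommRing 𝒪] [IsDomain 𝒪] [IsDiscreteValuationRing 𝒪]
  [IsAdicComplete (IsLocalRing.maximalIdeal 𝒪) 𝒪]
  {θ : CuspForm.heckeAlgebra N 2 (↑S : Set ℕ) →+* IsLocalRing.ResidueField 𝒪}
  {T : Type} [CommRing T] [IsLocalRing T] [IsNoetherianRing T]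
  [IsAdicComplete (IsLocalRing.maximalIdeal T) T] [Algebra 𝒪 T] [IsLocalHom (algebraMap 𝒪 T)]
  [Module.Finite 𝒪 T] [Module.Free 𝒪 T]

/-- **S34 from Kummer level data with `(σ - 1)² = 0` on inertia at `q`.** -/
theorem s34_of_kumLevelData (D : KumLevelData N S p) (hp : p.Prime)
    (hp𝒪 : (p : 𝒪) ∈ IsLocalRing.maximalIdeal 𝒪) (hpS : p ∈ S)
    (hNS : ∀ q : ℕ, q.Prime → q ∣ N → q ∈ S)
    (H : CuspForm.HeckeGaloisRepDatum N (↑S : Set ℕ) 𝒪 θ T)
    (q : ℕ) (hq : q.Prime) (hqp : q ≠ p)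
    (hss : ∀ (n : ℕ) (P : ValuationSubring Qb), P.LiesOverPrime q →
      ∀ σ ∈ P.inertiaSubgroupIn ℚ, (D.gal n σ - 1) * (D.gal n σ - 1) = 0) :
    H.ρ.IsUnipotentOnInertiaAt q := by
  have : Fact p.Prime := ⟨hp⟩
  have hpT : (p : T) ∈ IsLocalRing.maximalIdeal T := by
    have h := map_nonunit (algebraMap 𝒪 T) (p : 𝒪) hp𝒪
    rwa [map_natCast] at h
  refine isUnipotentOnInertiaAt_of_traceLevels D.tateLevels hpS H.π H.ρ ?_ hpT q hq hqp hss
  intro ℓ hℓ hℓS A hA σ hσ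
  have hℓN : ¬ ℓ ∣ N := fun h => hℓS (hNS ℓ hℓ h)
  have hℓS' : ℓ ∉ (↑S : Set ℕ) := by simpa using hℓS
  rw [heckeTl_eq hℓ hℓN hℓS']
  exact H.charpoly_frob ℓ hℓ hℓN hℓS' A hA σ hσ

/-- **The frozen statement S34 from (K18s at general exponents), (EIGS tower) and the
semistability gate at `q`.** -/
theorem s34_of_gates (hK : K18sPow) (hT : TowerGate N S p) (hp : p.Prime)
    (hp𝒪 : (p : 𝒪) ∈ IsLocalRing.maximalIdeal 𝒪) (hpS : p ∈ S)
    (hNS : ∀ q : ℕ, q.Prime → q ∣ N → q ∈ S)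
    (H : CuspForm.HeckeGaloisRepDatum N (↑S : Set ℕ) 𝒪 θ T)
    (q : ℕ) (hq : q.Prime) (hqp : q ≠ p) (hSS : ∀ n : ℕ, SSGate N q (p ^ n)) :
    H.ρ.IsUnipotentOnInertiaAt q := by
  obtain ⟨D, hss⟩ := exists_kumLevelData_ss hK hT hp hpS hNS q hSS
  exact s34_of_kumLevelData D hp hp𝒪 hpS hNS H q hq hqp hss

end Fermat.Agent.GK.Tate
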