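/-
GATE-K / K0 TATE-SIDE, unit form of the semistability gate (helper43).

`SSGate N q m` (`GK/Tate/S34Top.lean`) in the language of functions: for every `σ` in an inertia
group over `q` and every `m`-divisible unit `u` of `F_N = ℚ̄(X₀(N))` (`m ∣ div u`) there is a unit
`w` of `F_N` with

  `σ u · σ u = σ (σ u) · u · w ^ m`,

i.e. `σ² u · u / (σ u)²` is an `m`-th power in `F_N` (constants of `ℚ̄` are `m`-th powers).
Here `σ u = galUnits N σ u` is the coefficientwise action on `q`-expansions.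
-/
import Fermat.Agent.GK.Tate.S34Top

set_option autoImplicit false

namespace Fermat.Agent.GK.Tate

open Fermat.Agent.GJ.KumGroup Fermat.Agent.GJ.Kum.KumType

/-- `ℚ̄`. -/
local notation "Qb" => AlgebraicClosure ℚ

/-- **Unit form of the semistability gate.** -/
theorem ssGate_iff_units {N : ℕ} [NeZero N] {q m : ℕ} :
    SSGate N q m ↔ ∀ A : ValuationSubring Qb, A.LiesOverPrime q →
      ∀ σ ∈ A.inertiaSubgroupIn ℚ, ∀ u : (FK N)ˣ, u ∈ pDivUnits Qb (FK N) m →
        ∃ w : (FK N)ˣ, galUnits N σ u * galUnits N σ u =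
          galUnits N σ (galUnits N σ u) * u * w ^ m := by
  rw [ssGate_iff]
  constructor
  · intro h A hA σ hσ u hu
    have h1 := h A hA σ hσ (Additive.ofMul (Kum.mk ⟨u, hu⟩))
    rw [gal_mk, gal_mk, ← ofMul_mul, ← ofMul_mul, ← map_mul, ← map_mul] at h1
    have h2 := Additive.ofMul.injective h1
    rw [Kum.mk_eq_mk_iff] at h2
    obtain ⟨w, hw⟩ := h2
    exact ⟨w, hw⟩
  · intro h A hA σ hσ x
    obtain ⟨u, rfl⟩ := exists_rep (K := Qb) (F := FK N) (p := m) x
    obtain ⟨w, hw⟩ := h A hA σ hσ u u.2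
    rw [gal_mk, gal_mk, ← ofMul_mul, ← ofMul_mul, ← map_mul, ← map_mul]
    refine congrArg Additive.ofMul ?_
    rw [Kum.mk_eq_mk_iff]
    exact ⟨w, hw⟩

end Fermat.Agent.GK.Tate
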