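/-
GATE-K / N12 S35 TATE-SIDE (helper17), brick S35-ALG: the trace lemma.

On a nonzero torsion-free module over a domain, an automorphism `f` with `f + q f⁻¹ = a`
(Cayley–Hamilton form `f² - a f + q = 0`) and `f⁴ - (1 + q²) f² + q² = (f² - 1)(f² - q²) = 0`
has `a = ±(1 + q)`:  with `P = X² - aX + q` one has `(X - μ)(X - (a - μ)) = P - P(μ)`, hence
`P(1) P(-1) P(q) P(-q) = q² ((1+q)² - a²)²` kills the module.
-/
import Mathlib

set_option autoImplicit false

open Polynomial

namespace Fermat.Agent.GK.Tate.S35Alg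

variable {𝒪 : Type*} [CommRing 𝒪]

/-- `(X - μ)(X - (a - μ)) = (X² - aX + q) - P(μ)` with `P = X² - aX + q`. -/
theorem linear_mul_linear (a q μ : 𝒪) :
    (X - C μ) * (X - C (a - μ)) = (X ^ 2 - C a * X + C q : 𝒪[X]) - C (μ ^ 2 - a * μ + q) := by
  simp only [C_sub, C_add, C_mul, C_pow]
  ring

/-- the value `P(μ)` of `P = X² - aX + q` -/
def pval (a q μ : 𝒪) : 𝒪 := μ ^ 2 - a * μ + q

theorem key_identity (a q : 𝒪) :
    ((X ^ 2 - 1) * (X ^ 2 - C (q * q)) : 𝒪[X]) *
        ((X - C (a - 1)) * (X - C (a - (-1))) * ((X - C (a - q)) * (X - C (a - (-q)))))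
      = ((X ^ 2 - C a * X + C q) - C (pval a q 1)) * ((X ^ 2 - C a * X + C q) - C (pval a q (-1))) *
        (((X ^ 2 - C a * X + C q) - C (pval a q q)) * ((X ^ 2 - C a * X + C q) - C (pval a q (-q)))) := by
  unfold pval
  rw [← linear_mul_linear a q 1, ← linear_mul_linear a q (-1), ← linear_mul_linear a q q,
    ← linear_mul_linear a q (-q)]
  simp only [C_neg, C_1, C_mul]
  ring

variable {E : Type*} [Ring E] [Algebra 𝒪 E]

/-- If `P(f) = 0` and `Q(f) = 0` then `P(1) P(-1) P(q) P(-q) = 0` in `E`. -/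
theorem algebraMap_prod_eq_zero (f : E) (a q : 𝒪)
    (hP : aeval f (X ^ 2 - C a * X + C q : 𝒪[X]) = 0)
    (hQ : aeval f ((X ^ 2 - 1) * (X ^ 2 - C (q * q)) : 𝒪[X]) = 0) :
    algebraMap 𝒪 E (pval a q 1 * pval a q (-1) * (pval a q q * pval a q (-q))) = 0 := by
  have h := congrArg (aeval f) (key_identity a q)
  rw [map_mul, hQ, zero_mul] at h
  rw [map_mul, map_mul, map_mul, map_sub, map_sub, map_sub, map_sub, hP, aeval_C, aeval_C,
    aeval_C, aeval_C, zero_sub, zero_sub, zero_sub, zero_sub, neg_mul_neg, neg_mul_neg] at h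
  rw [map_mul, map_mul, map_mul]
  exact h.symm

end Fermat.Agent.GK.Tate.S35Alg

namespace Fermat.Agent.GK.Tate.S35Alg

variable {𝒪 : Type*} [CommRing 𝒪] [IsDomain 𝒪]
variable {L : Type*} [AddCommGroup L] [Module 𝒪 L] [Module.IsTorsionFree 𝒪 L] [Nontrivial L]

/-- **The S35 trace lemma.**  On a nonzero torsion-free module, an automorphism `f` with
`f + q f⁻¹ = a` and `f⁴ - (1 + q²) f² + q² = 0` (`q ≠ 0`) has `a = ±(1 + q)`. -/
theorem trace_eq_or_of_quartic (f g : Module.End 𝒪 L) (hfg : f * g = 1) (a q : 𝒪) (hq : q ≠ 0)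
    (hrel : f + q • g = a • (1 : Module.End 𝒪 L))
    (hquart : ∀ v : L, f (f (f (f v))) - (1 + q * q) • f (f v) + (q * q) • v = 0) :
    a = 1 + q ∨ a = -(1 + q) := by
  have hquad : f * f + q • (1 : Module.End 𝒪 L) = a • f := by
    have h1 : f * (f + q • g) = f * (a • (1 : Module.End 𝒪 L)) := by rw [hrel]
    rw [mul_add, mul_smul_comm, hfg, mul_smul_comm, mul_one] at h1
    exact h1
  have hP : aeval f (X ^ 2 - C a * X + C q : 𝒪[X]) = 0 := by
    simp only [map_add, map_sub, map_mul, map_pow, aeval_X, aeval_C]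
    rw [pow_two, Algebra.algebraMap_eq_smul_one, Algebra.algebraMap_eq_smul_one, smul_mul_assoc,
      one_mul, ← hquad]
    abel
  have hQ : aeval f ((X ^ 2 - 1) * (X ^ 2 - C (q * q)) : 𝒪[X]) = 0 := by
    simp only [map_sub, map_mul, map_pow, aeval_X, aeval_C, map_one]
    rw [Algebra.algebraMap_eq_smul_one]
    apply LinearMap.ext
    intro v
    have h := hquart v
    simp only [pow_two, Module.End.mul_apply, LinearMap.sub_apply, LinearMap.smul_apply,
      Module.End.one_apply, LinearMap.zero_apply, map_sub, map_smul]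
    rw [← h]
    module
  have h0 := algebraMap_prod_eq_zero (E := Module.End 𝒪 L) f a q hP hQ
  obtain ⟨v, hv⟩ := exists_ne (0 : L)
  have h1 : (pval a q 1 * pval a q (-1) * (pval a q q * pval a q (-q))) • v = 0 := by
    have := LinearMap.congr_fun h0 v
    rwa [Algebra.algebraMap_eq_smul_one, LinearMap.smul_apply, Module.End.one_apply,
      LinearMap.zero_apply] at this
  have h2 : pval a q 1 * pval a q (-1) * (pval a q q * pval a q (-q)) = 0 :=
    (smul_eq_zero.mp h1).resolve_right hv
  unfold pval at h2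
  rcases mul_eq_zero.mp h2 with h3 | h3
  · rcases mul_eq_zero.mp h3 with h4 | h4
    · left
      linear_combination -h4
    · right
      linear_combination h4
  · rcases mul_eq_zero.mp h3 with h4 | h4
    · left
      have : q * (q + 1 - a) = 0 := by linear_combination h4
      rcases mul_eq_zero.mp this with h5 | h5
      · exact absurd h5 hq
      · linear_combination -h5
    · right
      have : q * (q + 1 + a) = 0 := by linear_combination h4
      rcases mul_eq_zero.mp this with h5 | h5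
      · exact absurd h5 hq
      · linear_combination h5

end Fermat.Agent.GK.Tate.S35Alg
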