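/-
GATE-K / N12 S35 TATE-SIDE (helper17), brick S35-CONSUMER.

`exists_galoisRepAdic_strong` : the representation built by `GJ/Tate/S30Consumer` from a Tate datum
`D` satisfies, for EVERY `σ ∈ G_ℚ` and every Hecke element `b` with `b = σ + cyc(σ) σ⁻¹` on `D.Y`,
`charpoly ρ(σ) = X² - χB(b) X + cyc(σ)` (the frozen S30 only records this at Frobenius elements of
good primes).

`chiB_eq_or` : if moreover `t • (σ⁴ - (1+q²) σ² + q²) = 0` on `D.Y` for a Hecke element `t` with
`χB t ≠ 0` and `cyc(σ) = q ≠ 0`, then `χB(b) = ±(1 + q)` (`S35Alg.trace_eq_or_of_quartic` on the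
eigen-quotient).  Together: `charpoly ρ(σ) = X² ∓ (q+1) X + q` = clause 2 of the frozen S35.
-/
import Mathlib
import Fermat.Agent.GJ.Tate.S30Consumer
import Fermat.Agent.GK.Tate.S35Alg
set_option autoImplicit false
namespace Fermat.Agent.GK.Tate.S35Consumer
open Polynomial
open Fermat.Agent.GJ.Tate Fermat.Agent.GJ.Tate.Extract Fermat.Agent.GJ.Tate.Density
open Fermat.Agent.GJ.Tate.S30Consumer

variable {p N : ℕ} {S : Finset ℕ}
variable {𝒪 : Type} [CommRing 𝒪] [IsDomain 𝒪] [IsDiscreteValuationRing 𝒪]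
variable {α : ℕ → 𝒪} (D : TateDatum p N S 𝒪 α) (cy : CycDatum p 𝒪)

include D cy in
/-- **S30 from a Tate datum, strong form**: the characteristic polynomial of EVERY `ρ(σ)`. -/
theorem exists_galoisRepAdic_strong [CharZero 𝒪]
    (hp : (p : 𝒪) ∈ IsLocalRing.maximalIdeal 𝒪) (hpS : p ∈ S)
    (hNS : ∀ q : ℕ, q.Prime → q ∣ N → q ∈ S) :
    ∃ ρ : GaloisRepAdic 𝒪,
      (∀ (σ : AlgebraicClosure ℚ ≃ₐ[ℚ] AlgebraicClosure ℚ) (b : D.B),
        (∀ y : D.Y, D.gal σ y + ((cy.d σ : 𝒪ˣ) : 𝒪) • D.gal σ⁻¹ y = b • y) →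
          LinearMap.charpoly (ρ.ρ σ) = X ^ 2 - C (D.χB b) * X + C (((cy.d σ : 𝒪ˣ) : 𝒪))) ∧
      (∀ q : ℕ, q.Prime → ¬ q ∣ N → q ≠ p → ρ.IsUnramifiedAt q) := by
  classical
  choose b hb using exists_hecke_eq D cy hp hpS hNS
  have hnt : Nontrivial (EigenQuot D) := nontrivial_eigenQuot D
  have h2 : (2 : 𝒪) ≠ 0 := two_ne_zero
  have rel : ∀ g, eigenRep D g + ((cy.d g : 𝒪ˣ) : 𝒪) • eigenRep D g⁻¹
      = D.χB (b g) • (1 : Module.End 𝒪 (EigenQuot D)) := by
    intro g
    apply Submodule.linearMap_qext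
    ext y
    simp only [LinearMap.comp_apply, Submodule.mkQ_apply, LinearMap.add_apply,
      LinearMap.smul_apply, Module.End.one_apply, eigenRep_mk]
    rw [← mk_smul_eq, ← hb g y, Submodule.Quotient.mk_add, Submodule.Quotient.mk_smul]
  obtain ⟨R, hchar, htr⟩ := exists_rankTwoRep (r := eigenRep D) (d := cy.d)
    (a := fun g => D.χB (b g)) (c := complexConjugation) h2 rel complexConjugation_mul_self
    cy.d_conj
  have hcont : GaloisActionIsAdicContinuous 𝒪 R.ρ := by
    intro n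
    obtain ⟨K₁, hK₁, h₁⟩ := D.gal_cont n
    obtain ⟨K₂, hK₂, h₂⟩ := cy.d_cont n
    refine ⟨K₁ ⊔ K₂, IntermediateField.finiteDimensional_sup K₁ K₂, fun σ hσ v => ?_⟩
    have hσ₁ : ∀ x ∈ K₁, σ x = x := fun x hx => hσ x ((le_sup_left : K₁ ≤ K₁ ⊔ K₂) hx)
    have hσ₂ : ∀ x ∈ K₂, σ x = x := fun x hx => hσ x ((le_sup_right : K₂ ≤ K₁ ⊔ K₂) hx)
    obtain ⟨v', hv'⟩ := htr σ ((p : 𝒪) ^ n) (by
      intro x
      induction x using Submodule.Quotient.induction_on with
      | H y =>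
        obtain ⟨y', hy'⟩ := h₁ σ hσ₁ y
        refine ⟨Submodule.Quotient.mk y', ?_⟩
        rw [eigenRep_mk, ← Submodule.Quotient.mk_sub, hy', Submodule.Quotient.mk_smul]) (by
      have := h₂ σ hσ₂
      rw [Ideal.mem_span_singleton'] at this
      obtain ⟨t, ht⟩ := this
      exact ⟨t, by rw [← ht, mul_comm]⟩) v
    rw [hv']
    exact Submodule.smul_mem_smul (Ideal.pow_mem_pow hp n) Submodule.mem_top
  refine ⟨{ V := R.V, finrank_eq := R.finrank_eq, ρ := R.ρ, isAdicContinuous := hcont }, ?_, ?_⟩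
  · intro σ b' hb'
    change LinearMap.charpoly (R.ρ σ) = _
    have hbσ : b σ = b' := by
      have : b σ - b' = 0 := by
        apply D.faithful
        intro y
        rw [sub_smul, ← hb σ y, ← hb' y, sub_self]
      exact sub_eq_zero.mp this
    rw [hchar σ]
    change X ^ 2 - C (D.χB (b σ)) * X + C _ = _
    rw [hbσ]
  · intro q hq hqN hqp P hP σ hσ
    change R.ρ σ = 1
    have hgal : D.gal σ = 1 := D.gal_unram q hq hqN hqp P hP σ hσ
    have hd : cy.d σ = 1 := cy.d_inertia q hq hqp P hP σ hσ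
    ext v
    obtain ⟨v', hv'⟩ := htr σ 0 (by
      intro x
      induction x using Submodule.Quotient.induction_on with
      | H y =>
        refine ⟨0, ?_⟩
        rw [eigenRep_mk, hgal, Module.End.one_apply, sub_self, smul_zero]) (by
      exact ⟨0, by rw [hd, Units.val_one, sub_self, mul_zero]⟩) v
    rw [zero_smul] at hv'
    rw [Module.End.one_apply]
    exact sub_eq_zero.mp hv'

omit [IsDiscreteValuationRing 𝒪] in
/-- **The S35 trace value**: `χB(b_σ) = ±(1 + q)` from the quartic relation on `D.Y`. -/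
theorem chiB_eq_or (σ : AlgebraicClosure ℚ ≃ₐ[ℚ] AlgebraicClosure ℚ) (b : D.B) (q : 𝒪)
    (hq : q ≠ 0)
    (hb : ∀ y : D.Y, D.gal σ y + q • D.gal σ⁻¹ y = b • y)
    (t : D.B) (ht : D.χB t ≠ 0)
    (hquart : ∀ y : D.Y, t • (D.gal σ (D.gal σ (D.gal σ (D.gal σ y)))
      - (1 + q * q) • D.gal σ (D.gal σ y) + (q * q) • y) = 0) :
    D.χB b = 1 + q ∨ D.χB b = -(1 + q) := by
  have hnt : Nontrivial (EigenQuot D) := nontrivial_eigenQuot D
  refine S35Alg.trace_eq_or_of_quartic (L := EigenQuot D) (eigenRep D σ) (eigenRep D σ⁻¹) ?_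
    (D.χB b) q hq ?_ ?_
  · rw [← map_mul, mul_inv_cancel, map_one]
  · apply Submodule.linearMap_qext
    ext y
    simp only [LinearMap.comp_apply, Submodule.mkQ_apply, LinearMap.add_apply,
      LinearMap.smul_apply, Module.End.one_apply, eigenRep_mk]
    rw [← mk_smul_eq, ← hb y, Submodule.Quotient.mk_add, Submodule.Quotient.mk_smul]
  · intro v
    induction v using Submodule.Quotient.induction_on with
    | H y =>
      have h := congrArg (Submodule.Quotient.mk (p := eigenSat D)) (hquart y)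
      rw [mk_smul_eq, Submodule.Quotient.mk_zero] at h
      have h' := (smul_eq_zero.mp h).resolve_left ht
      rw [Submodule.Quotient.mk_add, Submodule.Quotient.mk_sub, Submodule.Quotient.mk_smul,
        Submodule.Quotient.mk_smul] at h'
      simpa only [eigenRep_mk] using h'

end Fermat.Agent.GK.Tate.S35Consumer
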