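/-
GATE-K / N12 S35 TATE-SIDE (helper17), brick S35-LIM: a Hecke-twisted quadratic relation
`T ∘ (s² − c₁ s + c₀) = 0` holding at every level of a tower holds in the limit
(on `R ⊗ Λ`, with helper23's `Tower.lim`).  Used with `s = σ²`, `c₁ = 1 + q²`, `c₀ = q²`.
-/
import Mathlib
import Fermat.Agent.GJ.Tate.LimAction

set_option autoImplicit false

noncomputable section

namespace Fermat.Agent.GK.Tate.S35Lim

open TensorProduct Fermat.Agent.GJ.Tate.Lim

universe u v w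

variable {p : ℕ} {Λ : Type u} [AddCommGroup Λ] {G : Type v} [Monoid G]
variable (𝒯 : Tower.{u, v, w} p Λ G) {R : Type*} [CommRing R]
variable [Module.Free ℤ Λ] [Module.Finite ℤ Λ] [IsAdicComplete (Ideal.span {(p : R)}) R]

/-- a twisted quadratic relation `T (s² − c₁ s + c₀) = 0` holding at every level holds in the
limit -/
theorem lim_twisted_quadratic {s : G} (T : Λ →ₗ[ℤ] Λ) (c₁ c₀ : ℤ)
    (h : ∀ n x y z, 𝒯.ρ n s (𝒯.π n x) = 𝒯.π n y → 𝒯.ρ n s (𝒯.π n y) = 𝒯.π n z →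
      𝒯.π n (T (z - c₁ • y + c₀ • x)) = 0) :
    bc R T * (𝒯.lim (R := R) s * 𝒯.lim s - (c₁ : R) • 𝒯.lim s + (c₀ : R) • 1) = 0 := by
  refine eq_of_forall_sub_mem (p := p) fun n => ?_
  rw [sub_zero]
  set φ := 𝒯.lift n s with hφ
  have hl := 𝒯.isLift_lift n s
  have h1 : bc R (T ∘ₗ (φ ∘ₗ φ - c₁ • φ + c₀ • LinearMap.id)) ∈ J p Λ R n := by
    refine 𝒯.bc_mem n _ fun x => ?_
    have := h n x (φ x) (φ (φ x)) (hl x).symm (hl (φ x)).symm
    rw [LinearMap.comp_apply, LinearMap.add_apply, LinearMap.sub_apply, LinearMap.comp_apply,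
      LinearMap.smul_apply, LinearMap.smul_apply, LinearMap.id_apply]
    exact this
  rw [bc_comp, bc_add, bc_sub, bc_comp, bc_zsmul, bc_zsmul, bc_id] at h1
  set L := 𝒯.lim (R := R) s with hL
  have hd : L - bc R φ ∈ J p Λ R n := 𝒯.lim_sub_bc_mem hl
  have h2 := J_mul_right hd L
  have h3 := J_mul_left hd (bc R φ)
  have h4 : (c₁ : R) • (L - bc R φ) ∈ J p Λ R n := (J p Λ R n).smul_mem _ hd
  have h5 := J_mul_left ((J p Λ R n).sub_mem ((J p Λ R n).add_mem h2 h3) h4) (bc R T)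
  have h6 := (J p Λ R n).add_mem h5 h1
  convert h6 using 1
  simp only [sub_mul, mul_sub, mul_add, smul_sub]
  abel

end Fermat.Agent.GK.Tate.S35Lim
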