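/-
GATE-K / N12 S35 TATE-SIDE (helper17), brick S35-TOWER.

`s35_of_tower` : from a tower `𝒯` (helper23's `Lim.Tower`) with `TowerHyp` (as for S30) and, for
every `q ∥ N`, `q ≠ p`, a Hecke operator `t` with `χ t ≠ 0` such that at every level and for every
Frobenius lift `σ` at `q`
        `t ∘ (σ⁴ − (1 + q²) σ² + q²) = 0`            (relational form, `s = σ²`),
ONE representation `ρ` with
  (1) `charpoly ρ(Frob_ℓ) = X² − χ(T_ℓ) X + ℓ` at the good primes (= the frozen S30), and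
  (2) `charpoly ρ(σ) = X² ∓ (q+1) X + q` for every Frobenius lift `σ` at such `q`
      (= clause 2 of the frozen S35).
`s35_of_kumModels` : the same from Kummer models (the input shape of `OfTower.s30_of_kumModels`).
-/
import Mathlib
import Fermat.Agent.GJ.Tate.TowerOfKumModels
import Fermat.Agent.GK.Tate.S35Consumer
import Fermat.Agent.GK.Tate.S35Lim
set_option autoImplicit false
noncomputable section
namespace Fermat.Agent.GK.Tate.S35Tower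
open TensorProduct CuspForm Polynomial
open Fermat.Agent.GJ Fermat.Agent.GJ.Tate Fermat.Agent.GJ.Tate.Lim Fermat.Agent.GJ.Tate.OfTower
open Fermat.Agent.GJ.Tate.S30Asm Fermat.Agent.GJ.Tate.S30Consumer

/-- the levelwise S35 hypothesis on a tower: for every `q ∥ N`, `q ≠ p`, a Hecke operator `t`
with `χ t ≠ 0` killing `(σ² − 1)(σ² − q²)` at every level, for every Frobenius lift `σ` at `q` -/
def TowerSS35 (p N : ℕ) [NeZero N] (S : Finset ℕ) {𝒪 : Type} [CommRing 𝒪]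
    (χ : heckeAlgebra N 2 (↑S : Set ℕ) →+* 𝒪)
    {Λ : Type} [AddCommGroup Λ] (act : heckeAlgebra N 2 (↑S : Set ℕ) →+* Module.End ℤ Λ)
    (𝒯 : Tower.{0, 0, 0} p Λ (AlgebraicClosure ℚ ≃ₐ[ℚ] AlgebraicClosure ℚ)) : Prop :=
  ∀ q : ℕ, q.Prime → q ≠ p → q ∣ N → ¬ q ^ 2 ∣ N →
    ∃ t : heckeAlgebra N 2 (↑S : Set ℕ), χ t ≠ 0 ∧
      ∀ A : ValuationSubring (AlgebraicClosure ℚ), A.LiesOverPrime q →
        ∀ σ : AlgebraicClosure ℚ ≃ₐ[ℚ] AlgebraicClosure ℚ, A.IsFrobeniusAt σ q →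
          ∀ (n : ℕ) (x y z : Λ), 𝒯.ρ n (σ * σ) (𝒯.π n x) = 𝒯.π n y →
            𝒯.ρ n (σ * σ) (𝒯.π n y) = 𝒯.π n z →
              𝒯.π n (act t (z - (1 + (q : ℤ) ^ 2) • y + ((q : ℤ) ^ 2) • x)) = 0

/-- the quartic relation in the limit, applied to a vector -/
theorem lim_quartic_apply {p : ℕ} {Λ : Type} [AddCommGroup Λ] [Module.Free ℤ Λ]
    [Module.Finite ℤ Λ] {𝒪 : Type} [CommRing 𝒪] [IsAdicComplete (Ideal.span {(p : 𝒪)}) 𝒪]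
    (𝒯 : Tower.{0, 0, 0} p Λ (AlgebraicClosure ℚ ≃ₐ[ℚ] AlgebraicClosure ℚ))
    (σ : AlgebraicClosure ℚ ≃ₐ[ℚ] AlgebraicClosure ℚ) (T : Λ →ₗ[ℤ] Λ) (q : ℕ)
    (hrel : ∀ (n : ℕ) (x y z : Λ), 𝒯.ρ n (σ * σ) (𝒯.π n x) = 𝒯.π n y →
      𝒯.ρ n (σ * σ) (𝒯.π n y) = 𝒯.π n z →
        𝒯.π n (T (z - (1 + (q : ℤ) ^ 2) • y + ((q : ℤ) ^ 2) • x)) = 0)
    (y : 𝒪 ⊗[ℤ] Λ) :
    bc 𝒪 T (𝒯.lim (R := 𝒪) σ (𝒯.lim (R := 𝒪) σ (𝒯.lim (R := 𝒪) σ (𝒯.lim (R := 𝒪) σ y)))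
      - (1 + (q : 𝒪) * (q : 𝒪)) • 𝒯.lim (R := 𝒪) σ (𝒯.lim (R := 𝒪) σ y)
      + ((q : 𝒪) * (q : 𝒪)) • y) = 0 := by
  have hlim := S35Lim.lim_twisted_quadratic (R := 𝒪) 𝒯 (s := σ * σ) T
    (1 + (q : ℤ) ^ 2) ((q : ℤ) ^ 2) hrel
  have e1 : (((1 + (q : ℤ) ^ 2 : ℤ)) : 𝒪) = 1 + (q : 𝒪) * (q : 𝒪) := by push_cast; ring
  have e2 : ((((q : ℤ) ^ 2 : ℤ)) : 𝒪) = (q : 𝒪) * (q : 𝒪) := by push_cast; ring
  rw [e1, e2, map_mul] at hlim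
  have := LinearMap.congr_fun hlim y
  simp only [Module.End.mul_apply, LinearMap.add_apply, LinearMap.sub_apply,
    LinearMap.smul_apply, Module.End.one_apply, LinearMap.zero_apply] at this
  exact this

/-- **S30 + clause 2 of S35 from a tower.** -/
theorem s35_of_tower (p : ℕ) [Fact p.Prime] (N : ℕ) [NeZero N] (S : Finset ℕ)
    (hpS : p ∈ S) (hNS : ∀ q : ℕ, q.Prime → q ∣ N → q ∈ S)
    (𝒪' : Type) [CommRing 𝒪'] [IsDomain 𝒪'] [IsDiscreteValuationRing 𝒪']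
    [IsAdicComplete (IsLocalRing.maximalIdeal 𝒪') 𝒪'] [Finite (IsLocalRing.ResidueField 𝒪')]
    [CharZero 𝒪'] (hp𝒪' : (p : 𝒪') ∈ IsLocalRing.maximalIdeal 𝒪')
    (χ : CuspForm.heckeAlgebra N 2 (↑S : Set ℕ) →+* 𝒪')
    (Λ : Type) [AddCommGroup Λ] [Module.Free ℤ Λ] [Module.Finite ℤ Λ]
    (act : heckeAlgebra N 2 (↑S : Set ℕ) →+* Module.End ℤ Λ) (hact : Function.Injective act)
    (𝒯 : Tower.{0, 0, 0} p Λ (AlgebraicClosure ℚ ≃ₐ[ℚ] AlgebraicClosure ℚ))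
    (h : TowerHyp p N S act 𝒯) (hSS : TowerSS35 p N S χ act 𝒯) :
    ∃ ρ : GaloisRepAdic 𝒪',
      (∀ (ℓ : ℕ) (hℓ : ℓ.Prime) (hℓN : ¬ ℓ ∣ N) (hℓS : ℓ ∉ (↑S : Set ℕ)),
        ∀ A : ValuationSubring (AlgebraicClosure ℚ), A.LiesOverPrime ℓ →
          ∀ σ : AlgebraicClosure ℚ ≃ₐ[ℚ] AlgebraicClosure ℚ, A.IsFrobeniusAt σ ℓ →
            LinearMap.charpoly (ρ.ρ σ) =
              X ^ 2 - C (χ (CuspForm.heckeAlgebra.T hℓ hℓN hℓS)) * X + C ((ℓ : 𝒪'))) ∧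
      (∀ q : ℕ, q.Prime → q ≠ p → q ∣ N → ¬ q ^ 2 ∣ N →
        ∀ A : ValuationSubring (AlgebraicClosure ℚ), A.LiesOverPrime q →
          ∀ σ : AlgebraicClosure ℚ ≃ₐ[ℚ] AlgebraicClosure ℚ, A.IsFrobeniusAt σ q →
            LinearMap.charpoly (ρ.ρ σ) = X ^ 2 - C ((q : 𝒪') + 1) * X + C ((q : 𝒪')) ∨
            LinearMap.charpoly (ρ.ρ σ) = X ^ 2 + C ((q : 𝒪') + 1) * X + C ((q : 𝒪'))) := by
  have hp0 : (p : 𝒪') ≠ 0 := Nat.cast_ne_zero.mpr (Fact.out : p.Prime).ne_zero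
  have : IsAdicComplete (Ideal.span {(p : 𝒪')}) 𝒪' := isAdicComplete_span_of_dvr hp𝒪' hp0
  set D : TateDatum p N S 𝒪' (alphaOf χ) :=
    ofTower act hact 𝒯 h χ (alphaOf χ) (fun ℓ hℓ hℓN hℓS => alphaOf_eq χ hℓ hℓN hℓS) with hD
  set cy : CycDatum p 𝒪' := cycDatum p 𝒪' hp𝒪' with hcy
  obtain ⟨ρ, hρ, -⟩ := S35Consumer.exists_galoisRepAdic_strong D cy hp𝒪' hpS hNS
  refine ⟨ρ, ?_, ?_⟩
  · -- clause 1
    intro ℓ hℓ hℓN hℓS A hA σ hσ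
    have hℓS' : ℓ ∉ S := fun hh => hℓS (Finset.mem_coe.mpr hh)
    have hℓp : ℓ ≠ p := fun hh => hℓS' (hh ▸ hpS)
    have hdσ : ((cy.d σ : 𝒪'ˣ) : 𝒪') = (ℓ : 𝒪') := cy.d_frob ℓ hℓ hℓp A hA σ hσ
    have hb : ∀ y : D.Y, D.gal σ y + ((cy.d σ : 𝒪'ˣ) : 𝒪') • D.gal σ⁻¹ y = D.t ℓ • y := by
      intro y
      rw [hdσ]
      exact frob_add_inv D ℓ hℓ hℓN hℓS' A hA σ hσ y
    rw [hρ σ (D.t ℓ) hb, hdσ, D.χB_t ℓ hℓ hℓN hℓS', alphaOf_eq χ hℓ hℓN hℓS]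
  · -- clause 2
    intro q hq hqp hqN hq2 A hA σ hσ
    obtain ⟨t, ht, hrel⟩ := hSS q hq hqp hqN hq2
    have hdσ : ((cy.d σ : 𝒪'ˣ) : 𝒪') = (q : 𝒪') := cy.d_frob q hq hqp A hA σ hσ
    obtain ⟨b, hb⟩ := Density.exists_hecke_eq D cy hp𝒪' hpS hNS σ
    have hq0 : (q : 𝒪') ≠ 0 := Nat.cast_ne_zero.mpr hq.ne_zero
    have hb' : ∀ y : D.Y, D.gal σ y + (q : 𝒪') • D.gal σ⁻¹ y = b • y := by
      intro y
      rw [← hdσ]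
      exact hb y
    -- the Hecke element `1 ⊗ t`
    set t' : D.B := (1 : 𝒪') ⊗ₜ[ℤ] t with ht'
    have hχt' : D.χB t' ≠ 0 := by
      have : D.χB t' = 1 * χ t := chiB_tmul 𝒪' χ 1 t
      rw [this, one_mul]
      exact ht
    have hact' : ∀ y : D.Y, t' • y = bc 𝒪' (act t : Λ →ₗ[ℤ] Λ) y := by
      intro y
      change heckeMap 𝒪' act ((1 : 𝒪') ⊗ₜ[ℤ] t) y = _
      rw [heckeMap_tmul, one_smul]
    have hquart : ∀ y : D.Y, t' • (D.gal σ (D.gal σ (D.gal σ (D.gal σ y)))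
        - (1 + (q : 𝒪') * (q : 𝒪')) • D.gal σ (D.gal σ y) + ((q : 𝒪') * (q : 𝒪')) • y) = 0 := by
      intro y
      rw [hact']
      exact lim_quartic_apply (𝒪 := 𝒪') 𝒯 σ (act t : Λ →ₗ[ℤ] Λ) q
        (fun n x y z hxy hyz => hrel A hA σ hσ n x y z hxy hyz) y
    have hor := S35Consumer.chiB_eq_or D σ b (q : 𝒪') hq0 hb' t' hχt' hquart
    rw [hρ σ b hb, hdσ]
    rcases hor with h1 | h1
    · left
      rw [h1, add_comm (1 : 𝒪')]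
    · right
      rw [h1, add_comm (1 : 𝒪'), map_neg, neg_mul, sub_neg_eq_add]

/-- **S30 + clause 2 of S35 from Kummer models at the moduli `p ^ n`** (input shape of
`OfTower.s30_of_kumModels` plus the levelwise S35 hypothesis `hSS`). -/
theorem s35_of_kumModels (p : ℕ) [Fact p.Prime] (N : ℕ) [NeZero N] (S : Finset ℕ)
    (hpS : p ∈ S) (hNS : ∀ q : ℕ, q.Prime → q ∣ N → q ∈ S)
    (𝒪' : Type) [CommRing 𝒪'] [IsDomain 𝒪'] [IsDiscreteValuationRing 𝒪']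
    [IsAdicComplete (IsLocalRing.maximalIdeal 𝒪') 𝒪'] [Finite (IsLocalRing.ResidueField 𝒪')]
    [CharZero 𝒪'] (hp𝒪' : (p : 𝒪') ∈ IsLocalRing.maximalIdeal 𝒪')
    (χ : CuspForm.heckeAlgebra N 2 (↑S : Set ℕ) →+* 𝒪')
    (Λ : Type) [AddCommGroup Λ] [Module.Free ℤ Λ] [Module.Finite ℤ Λ]
    (act : heckeAlgebra N 2 (↑S : Set ℕ) →+* Module.End ℤ Λ) (hact : Function.Injective act)
    (M : ∀ n : ℕ, J4Asm.KumModel N (p ^ n))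
    (Θ : ∀ n, Λ →+ (M n).K) (hsurj : ∀ n, Function.Surjective (Θ n))
    (hker : ∀ n x, Θ n x = 0 → ∃ y, x = (p ^ n) • y)
    (hcompat : ∀ n (g : AlgebraicClosure ℚ ≃ₐ[ℚ] AlgebraicClosure ℚ) (x y : Λ),
      (M (n + 1)).gal g (Θ (n + 1) x) = Θ (n + 1) y → (M n).gal g (Θ n x) = Θ n y)
    (hΘT : ∀ n (ℓ : ℕ), ℓ.Prime → ℓ ∉ S → ∀ x,
      Θ n (act (heckeTl N S ℓ) x) = (M n).T ℓ (Θ n x))
    (hSS : ∀ q : ℕ, q.Prime → q ≠ p → q ∣ N → ¬ q ^ 2 ∣ N →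
      ∃ t : heckeAlgebra N 2 (↑S : Set ℕ), χ t ≠ 0 ∧
        ∀ A : ValuationSubring (AlgebraicClosure ℚ), A.LiesOverPrime q →
          ∀ σ : AlgebraicClosure ℚ ≃ₐ[ℚ] AlgebraicClosure ℚ, A.IsFrobeniusAt σ q →
            ∀ (n : ℕ) (x y z : Λ), (M n).gal (σ * σ) (Θ n x) = Θ n y →
              (M n).gal (σ * σ) (Θ n y) = Θ n z →
                Θ n (act t (z - (1 + (q : ℤ) ^ 2) • y + ((q : ℤ) ^ 2) • x)) = 0) :
    ∃ ρ : GaloisRepAdic 𝒪',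
      (∀ (ℓ : ℕ) (hℓ : ℓ.Prime) (hℓN : ¬ ℓ ∣ N) (hℓS : ℓ ∉ (↑S : Set ℕ)),
        ∀ A : ValuationSubring (AlgebraicClosure ℚ), A.LiesOverPrime ℓ →
          ∀ σ : AlgebraicClosure ℚ ≃ₐ[ℚ] AlgebraicClosure ℚ, A.IsFrobeniusAt σ ℓ →
            LinearMap.charpoly (ρ.ρ σ) =
              X ^ 2 - C (χ (CuspForm.heckeAlgebra.T hℓ hℓN hℓS)) * X + C ((ℓ : 𝒪'))) ∧
      (∀ q : ℕ, q.Prime → q ≠ p → q ∣ N → ¬ q ^ 2 ∣ N →
        ∀ A : ValuationSubring (AlgebraicClosure ℚ), A.LiesOverPrime q →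
          ∀ σ : AlgebraicClosure ℚ ≃ₐ[ℚ] AlgebraicClosure ℚ, A.IsFrobeniusAt σ q →
            LinearMap.charpoly (ρ.ρ σ) = X ^ 2 - C ((q : 𝒪') + 1) * X + C ((q : 𝒪')) ∨
            LinearMap.charpoly (ρ.ρ σ) = X ^ 2 + C ((q : 𝒪') + 1) * X + C ((q : 𝒪'))) :=
  s35_of_tower p N S hpS hNS 𝒪' hp𝒪' χ Λ act hact (towerOfKumModels M Θ hsurj hker hcompat)
    (towerHyp_of_kumModels Fact.out hpS hNS act M Θ hsurj hker hcompat hΘT)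
    (fun q hq hqp hqN hq2 => by
      obtain ⟨t, ht, hrel⟩ := hSS q hq hqp hqN hq2
      exact ⟨t, ht, fun A hA σ hσ n x y z hxy hyz => hrel A hA σ hσ n x y z hxy hyz⟩)

end Fermat.Agent.GK.Tate.S35Tower
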