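/-
GATE-K / N12 S35 TATE-SIDE (helper17) — the analogue of helper43's `S34Top.s34_of_gates`.

`s35_of_gate : S35Gate → (frozen statement S35)`.

* J1's Kummer theorem `k18sAux` and J2's tower (`Lam N`, `latAct`, `thetaLat`) are THEOREMS
  (S30/S31 are closed), so the only input left is the geometry at `q ∥ M`:
* `SS35Gate N S p q t` : for every Frobenius lift `σ` at `q` and every `n`, on
  `Kum_{pⁿ}(F_N) ≅ Lam N / pⁿ` (via `thetaLat`):   `t ∘ (σ² − 1)(σ² − q²) = 0`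
  (relational form, with `s = σ²`: `s² − (1 + q²) s + q²`).
* `S35Gate` : for every newform `g` of level `M`, every `q ∥ M`, `q ≠ lam`, there is
  `t ∈ heckeAlgebra M 2 S` with `chig t ≠ 0` and `SS35Gate M S lam q t`.
-/
import Mathlib
import Fermat.Prelude.Def_CuspForm_Newforms
import Fermat.Agent.GJ.Tate.S30Final
import Fermat.Agent.GJ.Tate.TowerGateCInst
import Fermat.Agent.GJ.J1.K18sAllFinal
import Fermat.Agent.GK.Tate.S35Tower
import Fermat.Agent.GK.Tate.S35Iota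
import Fermat.Agent.S22

set_option autoImplicit false

open CuspForm Polynomial

namespace Fermat.Agent.GK.Tate.S35Top

open Fermat.Agent.GJ.KumGroup Fermat.Agent.GJ.Kum.KumType Fermat.Agent.GJ.J4Asm
open Fermat.Agent.GJ.KumFinal (hnMemHyp hnDivHyp)
open Fermat.Agent.GJ.Tate.S31Top Fermat.Agent.GJ.Tate.OfTower Fermat.Agent.GJ
open Fermat.Agent.GJ.Tate.S30Top Fermat.Agent.GJ.KumTower Fermat.Agent.GJ.J2.Lat
open Fermat.Agent.GJ.J2.LatAct Fermat.Agent.GJ.Tate.TowerGateCInst Fermat.Agent.GJ.Tate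

/-- `ℚ̄`. -/
local notation "Qb" => AlgebraicClosure ℚ

/-- the tower map `Lam N → Kum_{pⁿ}(F_N)` used for S30/S31 -/
noncomputable def ThetaN (N : ℕ) [NeZero N] (p : ℕ) [Fact p.Prime] (n : ℕ) :
    Lam N →+ Additive (Kum Qb (FK N) (p ^ n)) :=
  haveI : NeZero (p ^ n) := ⟨pow_ne_zero n (Fact.out : p.Prime).ne_zero⟩
  thetaLat N (p ^ n) (isPrimitiveRoot_zetaPow p n (Fact.out : p.Prime).ne_zero)

/-- **the S35 gate at `(N, q, t)`**: `t ∘ (σ² − 1)(σ² − q²) = 0` on every `Kum_{pⁿ}(F_N)`, for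
every Frobenius lift `σ` at `q`. -/
def SS35Gate (N : ℕ) [NeZero N] (S : Finset ℕ) (p : ℕ) [Fact p.Prime] (q : ℕ)
    (t : heckeAlgebra N 2 (↑S : Set ℕ)) : Prop :=
  ∀ A : ValuationSubring (AlgebraicClosure ℚ), A.LiesOverPrime q →
    ∀ σ : AlgebraicClosure ℚ ≃ₐ[ℚ] AlgebraicClosure ℚ, A.IsFrobeniusAt σ q →
      ∀ (n : ℕ) (x y z : Lam N),
        gal N (p ^ n) (σ * σ) (ThetaN N p n x) = ThetaN N p n y →
        gal N (p ^ n) (σ * σ) (ThetaN N p n y) = ThetaN N p n z →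
          ThetaN N p n (latAct N (↑S : Set ℕ) t
            (z - (1 + (q : ℤ) ^ 2) • y + ((q : ℤ) ^ 2) • x)) = 0

/-- **S30 + clause 2 of S35 from the gates** (`𝒪'' := 𝒪'`). -/
theorem s35_of_gates (hK : K18sPow) (p : ℕ) [Fact p.Prime] (N : ℕ) [NeZero N] (S : Finset ℕ)
    (hpS : p ∈ S) (hNS : ∀ q : ℕ, q.Prime → q ∣ N → q ∈ S)
    (𝒪' : Type) [CommRing 𝒪'] [IsDomain 𝒪'] [IsDiscreteValuationRing 𝒪']
    [IsAdicComplete (IsLocalRing.maximalIdeal 𝒪') 𝒪'] [Finite (IsLocalRing.ResidueField 𝒪')]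
    [CharZero 𝒪'] (hp𝒪' : (p : 𝒪') ∈ IsLocalRing.maximalIdeal 𝒪')
    (χ : CuspForm.heckeAlgebra N 2 (↑S : Set ℕ) →+* 𝒪')
    (hSS : ∀ q : ℕ, q.Prime → q ≠ p → q ∣ N → ¬ q ^ 2 ∣ N →
      ∃ t : heckeAlgebra N 2 (↑S : Set ℕ), χ t ≠ 0 ∧ SS35Gate N S p q t) :
    ∃ ρ : GaloisRepAdic 𝒪',
      (∀ (ℓ : ℕ) (hℓ : ℓ.Prime) (hℓN : ¬ ℓ ∣ N) (hℓS : ℓ ∉ (↑S : Set ℕ)),
        ∀ A : ValuationSubring (AlgebraicClosure ℚ), A.LiesOverPrime ℓ →
          ∀ σ : AlgebraicClosure ℚ ≃ₐ[ℚ] AlgebraicClosure ℚ, A.IsFrobeniusAt σ ℓ →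
            LinearMap.charpoly (ρ.ρ σ) =
              X ^ 2 - C (χ (CuspForm.heckeAlgebra.T hℓ hℓN hℓS)) * X + C ((ℓ : 𝒪'))) ∧
      (∀ q : ℕ, q.Prime → q ≠ p → q ∣ N → ¬ q ^ 2 ∣ N →
        ∀ A : ValuationSubring (AlgebraicClosure ℚ), A.LiesOverPrime q →
          ∀ σ : AlgebraicClosure ℚ ≃ₐ[ℚ] AlgebraicClosure ℚ, A.IsFrobeniusAt σ q →
            LinearMap.charpoly (ρ.ρ σ) = X ^ 2 - C ((q : 𝒪') + 1) * X + C ((q : 𝒪')) ∨
            LinearMap.charpoly (ρ.ρ σ) = X ^ 2 + C ((q : 𝒪') + 1) * X + C ((q : 𝒪'))) := by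
  have hp : p.Prime := Fact.out
  have hp0 : p ≠ 0 := hp.ne_zero
  have hpos : ∀ n : ℕ, 0 < p ^ n := fun n => pow_pos hp.pos n
  have hne : ∀ n : ℕ, NeZero (p ^ n) := fun n => ⟨pow_ne_zero n hp0⟩
  -- the (T2) clause
  have htr : ∀ (n : ℕ) (x : Lam N),
      Additive.ofMul (KumTower.trans (pow_dvd_pow p (Nat.le_succ n))
        (Additive.toMul (ThetaN N p (n + 1) x))) = ThetaN N p n x := by
    intro n x
    unfold ThetaN
    rw [thetaLat_trans N (p ^ (n + 1)) (pow_dvd_pow p (Nat.le_succ n))]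
    exact DFunLike.congr_fun
      (thetaLat_congr N (p ^ n) _ _ (zetaPow_succ_pow_div p n hp0)) x
  refine S35Tower.s35_of_kumModels p N S hpS hNS 𝒪' hp𝒪' χ (Lam N) (latAct N (↑S : Set ℕ))
    (latAct_injective N _) (fun n => kumModelPow N hK (p ^ n) (hpos n)) (ThetaN N p)
    (fun n => thetaLat_surjective N _ _) (fun n x hx => thetaLat_eq_zero N _ _ x hx) ?_ ?_ ?_
  · -- compatibility
    intro n g x y hxy
    change gal N (p ^ (n + 1)) g (ThetaN N p (n + 1) x) = ThetaN N p (n + 1) y at hxy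
    change gal N (p ^ n) g (ThetaN N p n x) = ThetaN N p n y
    rw [← htr n x, ← htr n y, gal_trans, hxy]
  · -- Hecke equivariance
    intro n ℓ hℓ hℓS x
    have hℓN : ¬ ℓ ∣ N := fun h => hℓS (hNS ℓ hℓ h)
    have hℓS' : ℓ ∉ (↑S : Set ℕ) := by simpa using hℓS
    have : NeZero ℓ := ⟨hℓ.ne_zero⟩
    obtain ⟨u, hu⟩ := exists_rep (K := Qb) (F := FK N) (p := p ^ n) (ThetaN N p n x)
    set hM := hnMemHyp N hℓ hℓN with hMdef
    set hD := hnDivHyp N (p ^ n) hℓ hℓN with hDdef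
    set u' : pDivUnits Qb (FK N) (p ^ n) :=
      ⟨heckeUnits hM u, heckeUnits_mem hM hD u u.2⟩ with hu'
    have h1 : ThetaN N p n (latAct N (↑S : Set ℕ) (heckeAlgebra.T hℓ hℓN hℓS') x)
        = Additive.ofMul (Kum.mk u') :=
      thetaLat_latAct_T N _ _ _ ℓ hℓ hℓN hℓS' x u u' hu rfl
    have h2 := kumModel_T_cls_of_eq (p := p ^ n) (fun _ hℓ hℓN => hnMemHyp N hℓ hℓN)
      (fun _ hℓ hℓN => hnDivHyp N (p ^ n) hℓ hℓN)
      (fun _ hℓ hℓNm => (es_hyps_pow N hK (hpos n) hℓ hℓNm).1)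
      (fun _ hℓ hℓNm => (es_hyps_pow N hK (hpos n) hℓ hℓNm).2) hℓ hℓN u u' rfl
    rw [heckeTl_eq hℓ hℓN hℓS']
    exact h1.trans (h2.symm.trans
      (congrArg ((kumModelPow N hK (p ^ n) (hpos n)).T ℓ) hu).symm)
  · -- the S35 hypothesis
    intro q hq hqp hqN hq2
    obtain ⟨t, ht, hG⟩ := hSS q hq hqp hqN hq2
    exact ⟨t, ht, fun A hA σ hσ n x y z hxy hyz => hG A hA σ hσ n x y z hxy hyz⟩

end Fermat.Agent.GK.Tate.S35Top
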