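/-
GATE-K / S35 branch, ADAPTER (helper17): the Hecke algebra `T^S = heckeAlgebra N 2 S` acts on the
Kummer groups `Kum_m(F_N)`, by transport from the lattice `Lam N` along helper63's `thetaLat`.

* `kumHecke N S m hζ : heckeAlgebra N 2 S →+* Module.End (ZMod m) (Additive (Kum Kb (FK N) m))`,
  `kumHecke_thetaLat : kumHecke t (thetaLat x) = thetaLat (latAct N S t x)`;
* `kumHecke_T` / `kumHecke_U` : on generators it is `TEnd` (helper42) / `UEnd` (helper86);
* `kumHecke_gal_apply` : it commutes with the Galois action `gal N m σ`;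
* `ss35Gate_of_end` : the END FORM `kumHeckeN t ∘ (s² − (1+q²) s + q²) = 0`, `s = gal N (pⁿ) (σ²)`,
  implies `S35Top.SS35Gate N S p q t` (the contract of `S35Final.s35_of_gate`).
  For `t = aeval (T_{ℓ_i}) P` use `map_aeval`/`MvPolynomial.aeval` + `kumHecke_T`.
-/
import Mathlib
import Fermat.Agent.GK.UQ.LatU
import Fermat.Agent.GK.Tate.S35Top

set_option autoImplicit false
set_option linter.unusedSectionVars false

noncomputable section

namespace Fermat.Agent.GK.Tate.KumHecke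

open CuspForm CongruenceSubgroup
open Fermat.Agent.GJ Fermat.Agent.GJ.KumGroup Fermat.Agent.GJ.Kum.KumType Fermat.Agent.GJ.KumTower
open Fermat.Agent.GJ.J2.Lat Fermat.Agent.GJ.J2.LatMod Fermat.Agent.GJ.J2.LatAct
open Fermat.Agent.GJ.EigAsm
open scoped MatrixGroups

variable (N : ℕ) [NeZero N] (S : Set ℕ) (m : ℕ) [NeZero m] {ζ : ℂ}

/-- well-definedness: an endomorphism of the lattice descends along `thetaLat` -/
theorem thetaLat_map_eq (hζ : IsPrimitiveRoot ζ m) (E : Module.End ℤ (Lam N)) {x x' : Lam N}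
    (h : thetaLat N m hζ x = thetaLat N m hζ x') :
    thetaLat N m hζ (E x) = thetaLat N m hζ (E x') := by
  have h0 : thetaLat N m hζ (x - x') = 0 := by rw [map_sub, h, sub_self]
  obtain ⟨y, hy⟩ := thetaLat_eq_zero N m hζ (x - x') h0
  have h1 : E x - E x' = m • E y := by rw [← map_sub, hy, map_nsmul]
  have h2 : thetaLat N m hζ (E x - E x') = 0 :=
    (thetaLat_eq_zero_iff N m hζ _).mpr ⟨E y, h1⟩
  rw [map_sub, sub_eq_zero] at h2
  exact h2

/-- the endomorphism of `Kum_m(F_N)` induced by an endomorphism of the lattice -/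
def descend (hζ : IsPrimitiveRoot ζ m) (E : Module.End ℤ (Lam N)) :
    Module.End (ZMod m) (Additive (Kum Kb (FK N) m)) :=
  AddMonoidHom.toZModLinearMap m
    { toFun := fun k => thetaLat N m hζ (E (Function.surjInv (thetaLat_surjective N m hζ) k))
      map_zero' := by
        have h := Function.surjInv_eq (thetaLat_surjective N m hζ) (0 : Additive (Kum Kb (FK N) m))
        rw [thetaLat_map_eq N m hζ E (h.trans (map_zero _).symm), map_zero, map_zero]
      map_add' := fun a b => by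
        have ha := Function.surjInv_eq (thetaLat_surjective N m hζ) a
        have hb := Function.surjInv_eq (thetaLat_surjective N m hζ) b
        have hab := Function.surjInv_eq (thetaLat_surjective N m hζ) (a + b)
        have : thetaLat N m hζ (Function.surjInv (thetaLat_surjective N m hζ) (a + b))
            = thetaLat N m hζ (Function.surjInv (thetaLat_surjective N m hζ) a
              + Function.surjInv (thetaLat_surjective N m hζ) b) := by
          rw [hab, map_add, ha, hb]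
        rw [thetaLat_map_eq N m hζ E this, map_add, map_add] }

theorem descend_thetaLat (hζ : IsPrimitiveRoot ζ m) (E : Module.End ℤ (Lam N)) (x : Lam N) :
    descend N m hζ E (thetaLat N m hζ x) = thetaLat N m hζ (E x) := by
  show thetaLat N m hζ (E (Function.surjInv (thetaLat_surjective N m hζ) (thetaLat N m hζ x))) = _
  exact thetaLat_map_eq N m hζ E (Function.surjInv_eq (thetaLat_surjective N m hζ) _)

theorem descend_ext (hζ : IsPrimitiveRoot ζ m) {F G : Module.End (ZMod m) (Additive (Kum Kb (FK N) m))}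
    (h : ∀ x : Lam N, F (thetaLat N m hζ x) = G (thetaLat N m hζ x)) : F = G := by
  refine LinearMap.ext fun k => ?_
  obtain ⟨x, rfl⟩ := thetaLat_surjective N m hζ k
  exact h x

/-- **the action of the Hecke algebra `T^S` on `Kum_m(F_N)`**, transported from the lattice. -/
def kumHecke (hζ : IsPrimitiveRoot ζ m) :
    ↥(heckeAlgebra N 2 S) →+* Module.End (ZMod m) (Additive (Kum Kb (FK N) m)) where
  toFun t := descend N m hζ (latAct N S t)
  map_one' := by
    refine descend_ext N m hζ fun x => ?_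
    rw [descend_thetaLat, map_one, Module.End.one_apply, Module.End.one_apply]
  map_mul' a b := by
    refine descend_ext N m hζ fun x => ?_
    rw [descend_thetaLat, map_mul, Module.End.mul_apply, Module.End.mul_apply, descend_thetaLat,
      descend_thetaLat]
  map_zero' := by
    refine descend_ext N m hζ fun x => ?_
    rw [descend_thetaLat, map_zero, LinearMap.zero_apply, LinearMap.zero_apply, map_zero]
  map_add' a b := by
    refine descend_ext N m hζ fun x => ?_
    rw [descend_thetaLat, map_add, LinearMap.add_apply, LinearMap.add_apply, map_add,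
      descend_thetaLat, descend_thetaLat]

/-- the defining property -/
theorem kumHecke_thetaLat (hζ : IsPrimitiveRoot ζ m) (t : ↥(heckeAlgebra N 2 S)) (x : Lam N) :
    kumHecke N S m hζ t (thetaLat N m hζ x) = thetaLat N m hζ (latAct N S t x) :=
  descend_thetaLat N m hζ _ x

/-- on the generators `T_ℓ` it is helper42's `TEnd` -/
theorem kumHecke_T (hζ : IsPrimitiveRoot ζ m) {ℓ : ℕ} (hℓ : ℓ.Prime) (hℓN : ¬ ℓ ∣ N)
    (hℓS : ℓ ∉ S) (hM : @HNMemHyp N ℓ) (hD : @HNDivHyp N m ℓ) :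
    haveI : NeZero ℓ := ⟨hℓ.ne_zero⟩
    kumHecke N S m hζ (heckeAlgebra.T hℓ hℓN hℓS) = TEnd hM hD := by
  haveI : NeZero ℓ := ⟨hℓ.ne_zero⟩
  haveI hF : Fact ℓ.Prime := ⟨hℓ⟩
  refine descend_ext N m hζ fun x => ?_
  rw [kumHecke_thetaLat, latAct_T]
  exact Fermat.Agent.GK.UQ.thetaLat_latT_of_not_dvd N m hζ hℓN hM hD x

/-- on the generators `U_q` it is helper86's `UEnd` -/
theorem kumHecke_U (hζ : IsPrimitiveRoot ζ m) {q : ℕ} [hF : Fact q.Prime] (hqN : q ∣ N)
    (hqS : q ∉ S) :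
    kumHecke N S m hζ (heckeAlgebra.U hF.out hqN hqS) = Fermat.Agent.GK.UQ.UEnd N m hqN := by
  refine descend_ext N m hζ fun x => ?_
  rw [kumHecke_thetaLat]
  exact Fermat.Agent.GK.UQ.thetaLat_latAct_U N m hζ S hqN hqS x

/-- the Hecke action on `Kum_m(F_N)` commutes with the Galois action (pointwise form) -/
theorem kumHecke_gal_apply (hζ : IsPrimitiveRoot ζ m) (t : ↥(heckeAlgebra N 2 S))
    (σ : AlgebraicClosure ℚ ≃ₐ[ℚ] AlgebraicClosure ℚ) (k : Additive (Kum Kb (FK N) m)) :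
    kumHecke N S m hζ t (gal N m σ k) = gal N m σ (kumHecke N S m hζ t k) := by
  obtain ⟨t0, ht0⟩ := t
  revert k
  refine Algebra.adjoin_induction
    (p := fun t0 ht0 => ∀ k : Additive (Kum Kb (FK N) m),
      kumHecke N S m hζ ⟨t0, ht0⟩ (gal N m σ k) = gal N m σ (kumHecke N S m hζ ⟨t0, ht0⟩ k))
    ?_ ?_ ?_ ?_ ht0
  · rintro _ (⟨ℓ, hℓ, hℓN, hℓS, rfl⟩ | ⟨q, hqN, hq, hqS, rfl⟩) k
    · haveI : NeZero ℓ := ⟨hℓ.ne_zero⟩
      have e : (⟨_, Algebra.subset_adjoin (Or.inl ⟨ℓ, hℓ, hℓN, hℓS, rfl⟩)⟩ :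
          ↥(heckeAlgebra N 2 S)) = heckeAlgebra.T hℓ hℓN hℓS := rfl
      rw [e, kumHecke_T N S m hζ hℓ hℓN hℓS (Fermat.Agent.GJ.KumFinal.hnMemHyp N hℓ hℓN)
        (Fermat.Agent.GJ.KumFinal.hnDivHyp N m hℓ hℓN)]
      exact LinearMap.congr_fun (TEnd_comm_gal _ _ σ) k
    · haveI hF : Fact q.Prime := ⟨hq⟩
      have e : (⟨_, Algebra.subset_adjoin (Or.inr ⟨q, hqN, hq, hqS, rfl⟩)⟩ :
          ↥(heckeAlgebra N 2 S)) = heckeAlgebra.U hq hqN hqS := rfl
      rw [e, kumHecke_U N S m hζ hqN hqS]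
      exact (LinearMap.congr_fun (Fermat.Agent.GK.UQ.UEnd_comm_gal m hqN σ) k).symm
  · intro r k
    have e : (⟨algebraMap ℤ _ r, Subalgebra.algebraMap_mem _ r⟩ : ↥(heckeAlgebra N 2 S))
        = algebraMap ℤ (↥(heckeAlgebra N 2 S)) r := rfl
    have e2 : ∀ k' : Additive (Kum Kb (FK N) m),
        kumHecke N S m hζ (algebraMap ℤ (↥(heckeAlgebra N 2 S)) r) k' = r • k' := by
      intro k'
      obtain ⟨x, rfl⟩ := thetaLat_surjective N m hζ k'
      rw [kumHecke_thetaLat, eq_intCast, map_intCast, Module.End.intCast_apply, map_zsmul]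
    rw [e, e2, e2, map_zsmul]
  · intro a b ha hb iha ihb k
    have e : (⟨a + b, Subalgebra.add_mem _ ha hb⟩ : ↥(heckeAlgebra N 2 S))
        = ⟨a, ha⟩ + ⟨b, hb⟩ := rfl
    rw [e, RingHom.map_add (kumHecke N S m hζ), LinearMap.add_apply, LinearMap.add_apply,
      map_add, iha, ihb]
  · intro a b ha hb iha ihb k
    have e : (⟨a * b, Subalgebra.mul_mem _ ha hb⟩ : ↥(heckeAlgebra N 2 S))
        = ⟨a, ha⟩ * ⟨b, hb⟩ := rfl
    rw [e, RingHom.map_mul (kumHecke N S m hζ), Module.End.mul_apply, Module.End.mul_apply,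
      ihb, iha]

/-! ### the S35 gate in End form -/

section Gate

open Fermat.Agent.GK.Tate.S35Top

variable (N : ℕ) [NeZero N] (S : Finset ℕ) (p : ℕ) [Fact p.Prime]

/-- the Hecke action on `Kum_{pⁿ}(F_N)` in the normalisation of `S35Top.ThetaN` -/
def kumHeckeN (n : ℕ) :
    ↥(heckeAlgebra N 2 (↑S : Set ℕ)) →+* Module.End (ZMod (p ^ n)) (Additive (Kum Kb (FK N) (p ^ n))) :=
  haveI : NeZero (p ^ n) := ⟨pow_ne_zero n (Fact.out : p.Prime).ne_zero⟩
  kumHecke N (↑S : Set ℕ) (p ^ n) (isPrimitiveRoot_zetaPow p n (Fact.out : p.Prime).ne_zero)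

theorem kumHeckeN_ThetaN (n : ℕ) (t : ↥(heckeAlgebra N 2 (↑S : Set ℕ))) (x : Lam N) :
    kumHeckeN N S p n t (ThetaN N p n x) = ThetaN N p n (latAct N (↑S : Set ℕ) t x) := by
  haveI : NeZero (p ^ n) := ⟨pow_ne_zero n (Fact.out : p.Prime).ne_zero⟩
  exact kumHecke_thetaLat N (↑S : Set ℕ) (p ^ n) _ t x

/-- **End form of the S35 gate ⟹ `SS35Gate`**: it suffices that
`t ∘ (s² − (1 + q²) s + q²) = 0` on `Kum_{pⁿ}(F_N)` with `s = gal(σ²)`, `t` acting by `kumHeckeN`. -/
theorem ss35Gate_of_end (q : ℕ) (t : ↥(heckeAlgebra N 2 (↑S : Set ℕ)))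
    (h : ∀ A : ValuationSubring (AlgebraicClosure ℚ), A.LiesOverPrime q →
      ∀ σ : AlgebraicClosure ℚ ≃ₐ[ℚ] AlgebraicClosure ℚ, A.IsFrobeniusAt σ q →
        ∀ (n : ℕ) (k : Additive (Kum Kb (FK N) (p ^ n))),
          kumHeckeN N S p n t (gal N (p ^ n) (σ * σ) (gal N (p ^ n) (σ * σ) k)
            - (1 + (q : ℤ) ^ 2) • gal N (p ^ n) (σ * σ) k + ((q : ℤ) ^ 2) • k) = 0) :
    SS35Gate N S p q t := by
  intro A hA σ hσ n x y z hxy hyz
  rw [← kumHeckeN_ThetaN, map_add, map_sub, map_zsmul, map_zsmul, ← hyz, ← hxy]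
  exact h A hA σ hσ n (ThetaN N p n x)

end Gate

end Fermat.Agent.GK.Tate.KumHecke
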