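/-
GATE-K / N12 S35 TATE-SIDE (helper17): **the frozen statement S35 from ONE gate**.

`s35_of_gate : S35Gate → (frozen S35)`, where
`S35Gate` : for every weight-2 newform `g` of level `M`, every prime `lam`, every finite set
`S ∋ lam` containing the primes of `M`, and every `q ∥ M`, `q ≠ lam`, there is a Hecke operator
`t ∈ heckeAlgebra M 2 S` with `chig t ≠ 0` such that `t ∘ (σ² − 1)(σ² − q²) = 0` on every
`Kum_{lamⁿ}(F_M)` for every Frobenius lift `σ` at `q` (`S35Top.SS35Gate`).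

Everything else (J1 Kummer theorem, J2 tower, Tate-module extraction, the trace lemma, injectivity
of `iota`) is proved.
-/
import Mathlib
import Fermat.Agent.GK.Tate.S35Top

set_option autoImplicit false

open CuspForm Polynomial

namespace Fermat.Agent.GK.Tate.S35Final

open Fermat.Agent.GK.Tate.S35Top

/-- **The S35 gate** (the contract for the geometry at `q ∥ M`). -/
def S35Gate : Prop :=
  ∀ {M : ℕ} [NeZero M] {g : CuspForm (CongruenceSubgroup.Gamma0 M) 2} (_ : g.IsNewform)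
    (lam : ℕ) [Fact lam.Prime] (S : Finset ℕ)
    (chig : CuspForm.heckeAlgebra M 2 (↑S : Set ℕ) →+* ℂ)
    (_ : ∀ (ℓ : ℕ) (hℓ : ℓ.Prime) (hℓM : ¬ ℓ ∣ M) (hℓS : ℓ ∉ (↑S : Set ℕ)),
      chig (CuspForm.heckeAlgebra.T hℓ hℓM hℓS) = ModularFormClass.qCoeff g ℓ)
    (_ : lam ∈ S) (_ : ∀ q : ℕ, q.Prime → q ∣ M → q ∈ S)
    (q : ℕ), q.Prime → q ≠ lam → q ∣ M → ¬ q ^ 2 ∣ M →
      ∃ t : CuspForm.heckeAlgebra M 2 (↑S : Set ℕ), chig t ≠ 0 ∧ SS35Gate M S lam q t

/-- **The frozen statement S35 from the gate.** -/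
theorem s35_of_gate (hG : S35Gate)
    {M : ℕ} [NeZero M] {g : CuspForm (CongruenceSubgroup.Gamma0 M) 2} (hg : g.IsNewform)
    (lam : ℕ) [Fact lam.Prime]
    (S : Finset ℕ)
    (O' : Type) [CommRing O'] [IsDomain O'] [IsDiscreteValuationRing O']
    [IsAdicComplete (IsLocalRing.maximalIdeal O') O'] [Finite (IsLocalRing.ResidueField O')]
    [CharZero O'] (hlamO' : (lam : O') ∈ IsLocalRing.maximalIdeal O')
    (chig : CuspForm.heckeAlgebra M 2 (↑S : Set ℕ) →+* ℂ)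
    (hchig : ∀ (ℓ : ℕ) (hℓ : ℓ.Prime) (hℓM : ¬ ℓ ∣ M) (hℓS : ℓ ∉ (↑S : Set ℕ)),
      chig (CuspForm.heckeAlgebra.T hℓ hℓM hℓS) = ModularFormClass.qCoeff g ℓ)
    (iota : chig.range →+* O')
    (hlamS : lam ∈ S) (hMS : ∀ q : ℕ, q.Prime → q ∣ M → q ∈ S) :
    ∃ (O'' : Type) (_ : CommRing O'') (_ : IsDomain O'') (_ : IsDiscreteValuationRing O'')
      (_ : IsAdicComplete (IsLocalRing.maximalIdeal O'') O'') (_ : Finite (IsLocalRing.ResidueField O''))
      (_ : CharZero O'') (_ : Algebra O' O'') (_ : Module.Finite O' O'') (_ : IsLocalHom (algebraMap O' O'')),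
      Function.Injective (algebraMap O' O'') ∧
      ∃ ρ : GaloisRepAdic O'',
        (∀ (ℓ : ℕ) (hℓ : ℓ.Prime) (hℓM : ¬ ℓ ∣ M) (hℓS : ℓ ∉ (↑S : Set ℕ)),
          ∀ A : ValuationSubring (AlgebraicClosure ℚ), A.LiesOverPrime ℓ →
            ∀ σ : AlgebraicClosure ℚ ≃ₐ[ℚ] AlgebraicClosure ℚ, A.IsFrobeniusAt σ ℓ →
              LinearMap.charpoly (ρ.ρ σ) =
                X ^ 2 - C (algebraMap O' O'' ((iota.comp chig.rangeRestrict) (CuspForm.heckeAlgebra.T hℓ hℓM hℓS))) * X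
                  + C ((ℓ : O''))) ∧
        (∀ q : ℕ, q.Prime → q ≠ lam → q ∣ M → ¬ q ^ 2 ∣ M →
          ∀ A : ValuationSubring (AlgebraicClosure ℚ), A.LiesOverPrime q →
            ∀ σ : AlgebraicClosure ℚ ≃ₐ[ℚ] AlgebraicClosure ℚ, A.IsFrobeniusAt σ q →
              LinearMap.charpoly (ρ.ρ σ) = X ^ 2 - C ((q : O'') + 1) * X + C ((q : O'')) ∨
              LinearMap.charpoly (ρ.ρ σ) = X ^ 2 + C ((q : O'') + 1) * X + C ((q : O''))) := by
  have hfin : Module.Finite ℤ (CuspForm.heckeAlgebra M 2 (↑S : Set ℕ)) :=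
    Fermat.Agent.S22.result M 2 (↑S : Set ℕ)
  have hinj : Function.Injective iota := S35Iota.injective_of_range chig iota
  have hK : Fermat.Agent.GJ.Tate.S31Top.K18sPow :=
    Fermat.Agent.GJ.Tate.S30Final.k18sPow_of_aux Fermat.Agent.GJ.J1.K18sAllFinal.k18sAux
  obtain ⟨ρ, hρ₁, hρ₂⟩ := s35_of_gates hK lam M S hlamS hMS O' hlamO'
    (iota.comp chig.rangeRestrict) (fun q hq hqlam hqM hq2 => by
      obtain ⟨t, ht, hGt⟩ := hG hg lam S chig hchig hlamS hMS q hq hqlam hqM hq2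
      refine ⟨t, ?_, hGt⟩
      intro h0
      apply ht
      have h1 : iota (chig.rangeRestrict t) = iota 0 := by rw [map_zero]; exact h0
      have h2 := congrArg Subtype.val (hinj h1)
      exact h2)
  refine ⟨O', inferInstance, inferInstance, inferInstance, inferInstance, inferInstance,
    inferInstance, Algebra.id O', Module.Finite.self O', ?_, ?_, ρ, ?_, hρ₂⟩
  · exact ⟨fun a ha => ha⟩
  · exact Function.injective_id
  · intro ℓ hℓ hℓM hℓS A hA σ hσ
    rw [hρ₁ ℓ hℓ hℓM hℓS A hA σ hσ]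
    rfl

end Fermat.Agent.GK.Tate.S35Final
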