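/-
GATE-K / N11 (helper43): the frozen statement S34 (∀-closed, exactly the type of
`Fermat.Agent.S34.result`) from ONE remaining input, the semistability gate at all levels

  `SSGateAll` : for all `N`, primes `p ≠ q` with `q ∥ N`, and all `n`: `SSGate N q (p ^ n)`
  (`(σ - 1)² = 0` on `Kum_{pⁿ}(F_N)` for `σ` in an inertia group over `q`; `GK/Tate/S34Top.lean`).

J1's `k18sPow` and J2's `towerGateC` (theorems) are plugged in.
`Fermat/Agent/S34.lean` is then `s34_of_ssGateAll ssGateAll`.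
`ssGateAll_of_package` : it suffices to construct helper44's `SS.SSPackage N (p ^ n) A` for every
valuation subring `A` of `ℚ̄` over `q` (`GK/SS/Gate.lean`).
-/
import Fermat.Agent.GK.Tate.S34Top
import Fermat.Agent.GK.SS.Gate
import Fermat.Agent.GJ.J1.K18sPowFinal
import Fermat.Agent.GJ.Tate.TowerGateCInst

set_option autoImplicit false

open CuspForm IsLocalRing

namespace Fermat.Agent.GK.Tate

/-- `ℚ̄`. -/
local notation "Qb" => AlgebraicClosure ℚ

/-- **The semistability gate at all levels** (the Kummer-side target of S34). -/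
def SSGateAll : Prop :=
  ∀ (N : ℕ) [NeZero N] (p q : ℕ), p.Prime → q.Prime → q ≠ p → q ∣ N → ¬ q ^ 2 ∣ N →
    ∀ n : ℕ, SSGate N q (p ^ n)

/-- The gate from semistability packages at every place over `q`. -/
theorem ssGateAll_of_package
    (h : ∀ (N : ℕ) [NeZero N] (p q : ℕ), p.Prime → q.Prime → q ≠ p → q ∣ N → ¬ q ^ 2 ∣ N →
      ∀ (n : ℕ) (A : ValuationSubring Qb), A.LiesOverPrime q →
        Nonempty (Fermat.Agent.GK.SS.SSPackage N (p ^ n) A)) :
    SSGateAll :=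
  fun N _ p q hp hq hqp hqN hq2 n =>
    Fermat.Agent.GK.SS.ssGate_of_package (pow_ne_zero n hp.ne_zero)
      (fun A hA => h N p q hp hq hqp hqN hq2 n A hA)

/-- **The frozen S34**, from the semistability gate. -/
theorem s34_of_ssGateAll (hSS : SSGateAll)
    {𝒪 : Type} [CommRing 𝒪] [IsDomain 𝒪] [IsDiscreteValuationRing 𝒪]
    [IsAdicComplete (maximalIdeal 𝒪) 𝒪] [Finite (ResidueField 𝒪)] [CharZero 𝒪]
    {p : ℕ} (hp : p.Prime) (hp𝒪 : (p : 𝒪) ∈ maximalIdeal 𝒪)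
    {N : ℕ} [NeZero N] {S : Finset ℕ} (hpS : p ∈ S) (hNS : ∀ q : ℕ, q.Prime → q ∣ N → q ∈ S)
    {θ : CuspForm.heckeAlgebra N 2 (↑S : Set ℕ) →+* ResidueField 𝒪}
    {T : Type} [CommRing T] [IsLocalRing T] [IsNoetherianRing T]
    [IsAdicComplete (maximalIdeal T) T] [Algebra 𝒪 T] [IsLocalHom (algebraMap 𝒪 T)]
    [Module.Finite 𝒪 T] [Module.Free 𝒪 T]
    (H : CuspForm.HeckeGaloisRepDatum N (↑S : Set ℕ) 𝒪 θ T)
    (q : ℕ) (hq : q.Prime) (hqp : q ≠ p) (hqN : q ∣ N) (hq2 : ¬ q ^ 2 ∣ N) :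
    H.ρ.IsUnipotentOnInertiaAt q :=
  have : Fact p.Prime := ⟨hp⟩
  s34_of_gates Fermat.Agent.GJ.J1.K18sPowFinal.k18sPow
    (Fermat.Agent.GJ.Tate.S30Top.towerGate_of_towerGateC
      (Fermat.Agent.GJ.Tate.TowerGateCInst.towerGateC p N S))
    hp hp𝒪 hpS hNS H q hq hqp (fun n => hSS N p q hp hq hqp hqN hq2 n)

end Fermat.Agent.GK.Tate
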