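/-
GATE-K / N11 (helper43): the final gate of S34 in the shape delivered by helper62's auxiliary-level
descent (`GK/SS/AuxDescent.lean`).

`SSGateAux` : `SSGate N q m` for every level `N` with `q ∥ N`, `q ∤ m`, under the tame-chart
conditions `q = 2 → 3 ∣ N`, `q = 3 → 2 ∣ N` (what the N10 package construction delivers, J1 at the
level `N / q` being available only there).
`ssGateAll_of_aux : SSGateAux → SSGateAll`, `s34_of_ssGateAux : SSGateAux → (frozen S34)`,
`ssGateAux_of_package` : from helper44's `SSPackage N m A` at every `A ∣ q` at those levels.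
-/
import Fermat.Agent.GK.Tate.S34Final
import Fermat.Agent.GK.SS.AuxDescent

set_option autoImplicit false

open CuspForm IsLocalRing

namespace Fermat.Agent.GK.Tate

/-- `ℚ̄`. -/
local notation "Qb" => AlgebraicClosure ℚ

/-- **The semistability gate at the auxiliary levels.** -/
def SSGateAux : Prop :=
  ∀ (N : ℕ) [NeZero N] (q m : ℕ), q.Prime → q ∣ N → ¬ q ^ 2 ∣ N → ¬ q ∣ m →
    (q = 2 → 3 ∣ N) → (q = 3 → 2 ∣ N) → SSGate N q m

/-- The auxiliary gate from semistability packages at every place over `q`. -/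
theorem ssGateAux_of_package
    (h : ∀ (N : ℕ) [NeZero N] (q m : ℕ), q.Prime → q ∣ N → ¬ q ^ 2 ∣ N → ¬ q ∣ m →
      (q = 2 → 3 ∣ N) → (q = 3 → 2 ∣ N) → m ≠ 0 →
      ∀ A : ValuationSubring Qb, A.LiesOverPrime q →
        Nonempty (Fermat.Agent.GK.SS.SSPackage N m A)) :
    SSGateAux := by
  intro N _ q m hq hqN hq2 hqm h2 h3
  have hm : m ≠ 0 := by
    rintro rfl
    exact hqm (dvd_zero q)
  exact Fermat.Agent.GK.SS.ssGate_of_package hm
    (fun A hA => h N q m hq hqN hq2 hqm h2 h3 hm A hA)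

/-- All levels from the auxiliary levels (helper62's descent). -/
theorem ssGateAll_of_aux (h : SSGateAux) : SSGateAll := by
  intro N _ p q hp hq hqp hqN hq2 n
  refine Fermat.Agent.GK.SS.AuxDescent.ssGate_of_aux
    (fun N' _ q' m' hq' hqN' hq2' hqm' h2 h3 => h N' q' m' hq' hqN' hq2' hqm' h2 h3)
    N q (p ^ n) hq hqN hq2 ?_
  intro hd
  exact hqp ((Nat.prime_dvd_prime_iff_eq hq hp).mp (hq.dvd_of_dvd_pow hd))

/-- **The frozen S34**, from the semistability gate at the auxiliary levels. -/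
theorem s34_of_ssGateAux (hSS : SSGateAux)
    {𝒪 : Type} [CommRing 𝒪] [IsDomain 𝒪] [IsDiscreteValuationRing 𝒪]
    [IsAdicComplete (maximalIdeal 𝒪) 𝒪] [Finite (ResidueField 𝒪)] [CharZero 𝒪]
    {p : ℕ} (hp : p.Prime) (hp𝒪 : (p : 𝒪) ∈ maximalIdeal 𝒪)
    {N : ℕ} [NeZero N] {S : Finset ℕ} (hpS : p ∈ S) (hNS : ∀ q : ℕ, q.Prime → q ∣ N → q ∈ S)
    {θ : CuspForm.heckeAlgebra N 2 (↑S : Set ℕ) →+* ResidueField 𝒪}
    {T : Type} [CommRing T] [IsLocalRing T] [IsNoetherianRing T]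
    [IsAdicComplete (maximalIdeal T) T] [Algebra 𝒪 T] [IsLocalHom (algebraMap 𝒪 T)]
    [Module.Finite 𝒪 T] [Module.Free 𝒪 T]
    (H : CuspForm.HeckeGaloisRepDatum N (↑S : Set ℕ) 𝒪 θ T)
    (q : ℕ) (hq : q.Prime) (hqp : q ≠ p) (hqN : q ∣ N) (hq2 : ¬ q ^ 2 ∣ N) :
    H.ρ.IsUnipotentOnInertiaAt q :=
  s34_of_ssGateAll (ssGateAll_of_aux hSS) hp hp𝒪 hpS hNS H q hq hqp hqN hq2

end Fermat.Agent.GK.Tate
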