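/-
GATE-K (S35 branch) / GATE-L (h) abstract brick (helper25): **the half-rank squeeze core**,
operator-valued and with NO semisimplicity assumption.

Setting: `V` a finite-dimensional space over a field `k` of characteristic `0`, a group `G` acting by
`ρ`, a commutative subalgebra `A ⊆ End_k V` (the Hecke algebra, `U_q` included) commuting with `ρ`,
and the pseudo-representation relation

  (R1)   `ρ g + ε g • ρ g⁻¹ = a g`,   `a g ∈ A`      (Eichler–Shimura in Hecke-element form).

Let `c ∈ G` with `c² = 1`, `ε c = -1` (complex conjugation) and assume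

  (TR)   `tr (t ∘ ρ c) = 0` for every `t ∈ A`

(on the lattice side: `c` is the character involution, which swaps the two Hecke-stable halves
`per(f, 0)` and `per(0, g)` of Eichler–Shimura).  Then:

* `two_mul_trace_mul` : `2 · tr (ρ g ∘ t) = tr (a g ∘ t)` for all `g ∈ G`, `t ∈ A`;
* `two_mul_finrank_ker_le` : if `φ ∈ G` has `ε φ = q ≠ 1` and `U ∈ A` with `U² = 1`, then
  `2 · dim ker (U - ρ φ) ≤ dim V`, hence `dim V ≤ 2 · rank (U - ρ φ)`.

This is the input "`E_λ(φ)` is at most half" of the counting deduction (board 2088/2121/2192) in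
the form needed when `A` does not act semisimply: `a φ` is an OPERATOR, the proof goes through the
Fitting idempotent of `z = a φ - (1 + q) U` (a polynomial in `z`, hence in `A`) and the two
idempotents cutting out the generalized eigenspaces of `φ U` for `1` and `q`.

Mathlib only.
-/
import Mathlib

set_option autoImplicit false
set_option linter.unusedSectionVars false

namespace Fermat.Agent.GK.HalfRank

open Module Polynomial

section TraceIdentity

variable {k : Type*} [Field k] {V : Type*} [AddCommGroup V] [Module k V]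
variable {G : Type*} [Group G] (ρ : G →* Module.End k V) (a : G → Module.End k V) (ε : G →* k)

/-- The polarised form of (R1): `ρ c ρ g + ρ g ρ c = a g ρ c + a (c g)`. -/
theorem anticomm_identity_op (hrel : ∀ g, ρ g + ε g • ρ g⁻¹ = a g) {c : G} (hc : c * c = 1)
    (hεc : ε c = -1) (g : G) :
    ρ c * ρ g + ρ g * ρ c = a g * ρ c + a (c * g) := by
  have hcinv : c⁻¹ = c := inv_eq_of_mul_eq_one_right hc
  have h1 := hrel g
  have h2 := hrel (c * g)
  rw [mul_inv_rev, hcinv, map_mul, map_mul, map_mul, hεc] at h2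
  -- h2 : ρ c * ρ g + (-1 * ε g) • (ρ g⁻¹ * ρ c) = a (c * g)
  have h3 : ε g • ρ g⁻¹ = a g - ρ g := eq_sub_of_add_eq' h1
  have h4 : (-1 * ε g) • (ρ g⁻¹ * ρ c) = -((ε g • ρ g⁻¹) * ρ c) := by
    rw [neg_one_mul, neg_smul, smul_mul_assoc]
  rw [h4, h3] at h2
  rw [← h2]
  noncomm_ring

variable [FiniteDimensional k V]

/-- **Trace identity** (complex-conjugation trick, operator-valued form):
`2 · tr (ρ g ∘ t) = tr (a g ∘ t)` for every `t` in a subalgebra `A` commuting with `ρ c`,
containing the `a g`, on which `t ↦ tr (t ∘ ρ c)` vanishes. -/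
theorem two_mul_trace_mul (A : Subalgebra k (Module.End k V))
    (hrel : ∀ g, ρ g + ε g • ρ g⁻¹ = a g) (ha : ∀ g, a g ∈ A) {c : G} (hc : c * c = 1)
    (hεc : ε c = -1) (hAc : ∀ t ∈ A, ρ c * t = t * ρ c)
    (htr : ∀ t ∈ A, LinearMap.trace k V (t * ρ c) = 0) (g : G) {t : Module.End k V}
    (ht : t ∈ A) :
    2 * LinearMap.trace k V (ρ g * t) = LinearMap.trace k V (a g * t) := by
  have h := anticomm_identity_op ρ a ε hrel hc hεc (c * g)
  rw [← mul_assoc c c g, hc, one_mul, map_mul] at h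
  -- h : ρ c * (ρ c * ρ g) + ρ c * ρ g * ρ c = a (c * g) * ρ c + a g
  have hcc : ρ c * ρ c = 1 := by rw [← map_mul, hc, map_one]
  have h1 : ρ c * (ρ c * ρ g) = ρ g := by rw [← mul_assoc, hcc, one_mul]
  rw [h1] at h
  have h2 := congrArg (fun x => LinearMap.trace k V (x * t)) h
  simp only [add_mul, map_add] at h2
  -- second term on the left
  have e1 : LinearMap.trace k V (ρ c * ρ g * ρ c * t) = LinearMap.trace k V (ρ g * t) := by
    rw [mul_assoc (ρ c * ρ g), mul_assoc (ρ c), LinearMap.trace_mul_comm, mul_assoc (ρ g),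
      mul_assoc, ← hAc t ht, ← mul_assoc (ρ c), hcc, one_mul]
  -- first term on the right
  have e2 : LinearMap.trace k V (a (c * g) * ρ c * t) = 0 := by
    rw [mul_assoc, hAc t ht, ← mul_assoc]
    exact htr _ (A.mul_mem (ha _) ht)
  rw [e1, e2, zero_add] at h2
  rw [two_mul]
  exact h2

end TraceIdentity

section Core

variable {k : Type*} [Field k] [CharZero k] {V : Type*} [AddCommGroup V] [Module k V]
  [FiniteDimensional k V]

/-- trace of (the image of) a nilpotent element is zero -/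
theorem trace_eq_zero_of_pow_eq_zero {S : Type*} [CommRing S] [Algebra k S]
    (ι : S →ₐ[k] Module.End k V) {x : S} {n : ℕ} (hx : x ^ n = 0) :
    LinearMap.trace k V (ι x) = 0 := by
  have hnil : IsNilpotent (ι x) := ⟨n, by rw [← map_pow, hx, map_zero]⟩
  exact (LinearMap.isNilpotent_trace_of_isNilpotent hnil).eq_zero

/-- **Commutative core.**  `C` a commutative algebra acting faithfully on `V`; `U² = 1`,
`φ` invertible, `φ + q φ⁻¹ = a`, and the trace identity against `U · p(z)`, `z = a - (1+q) U`.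
Then `ker (U - φ)` has at most half the dimension. -/
theorem core {S : Type*} [CommRing S] [Algebra k S] (ι : S →ₐ[k] Module.End k V)
    (hι : Function.Injective ι) (U φ φi a : S) (q : k) (hq : q ≠ 1)
    (hU : U * U = 1) (hφ : φ * φi = 1) (ha : φ + q • φi = a)
    (htr : ∀ p : k[X],
      2 * LinearMap.trace k V (ι (φ * (U * aeval (a - (1 + q) • U) p)))
        = LinearMap.trace k V (ι (a * (U * aeval (a - (1 + q) • U) p)))) :
    2 * finrank k (LinearMap.ker (ι U - ι φ)) ≤ finrank k V := by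
  classical
  set z : S := a - (1 + q) • U with hz
  -- `C` is finite-dimensional, so `z` is integral
  have hfin : Module.Finite k S := Module.Finite.of_injective ι.toLinearMap hι
  have hint : IsIntegral k z := (Algebra.IsIntegral.of_finite k S).isIntegral z
  have hμ0 : minpoly k z ≠ 0 := minpoly.ne_zero hint
  obtain ⟨h, hμ, hnd⟩ := Polynomial.exists_eq_pow_rootMultiplicity_mul_and_not_dvd
    (minpoly k z) hμ0 0
  rw [map_zero, sub_zero] at hμ hnd
  set r : ℕ := (minpoly k z).rootMultiplicity 0 with hr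
  -- Bezout for `X^(r+1)` and `h`
  have hcop : IsCoprime ((X : k[X]) ^ (r + 1)) h :=
    ((Polynomial.irreducible_X).coprime_iff_not_dvd.mpr hnd).pow_left
  obtain ⟨u, v, huv⟩ := hcop
  -- the Fitting idempotent
  set e : S := aeval z (v * h) with he
  have hμz : aeval z (minpoly k z) = 0 := minpoly.aeval k z
  have hXμ : aeval z ((X : k[X]) ^ (r + 1) * h) = 0 := by
    have : (X : k[X]) ^ (r + 1) * h = X * minpoly k z := by
      rw [hμ]; ring
    rw [this, map_mul, hμz, mul_zero]
  have he1 : z ^ (r + 1) * e = 0 := by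
    have : z ^ (r + 1) * e = aeval z (v * ((X : k[X]) ^ (r + 1) * h)) := by
      rw [he, map_mul, map_mul, map_mul, map_pow, aeval_X]; ring
    rw [this, map_mul, hXμ, mul_zero]
  have h1e : 1 - e = aeval z (u * (X : k[X]) ^ r) * z := by
    have : (1 : S) = aeval z (u * X ^ (r + 1) + v * h) := by rw [huv, map_one]
    rw [he]
    conv_lhs => rw [this]
    rw [map_add, add_sub_cancel_right, map_mul, map_mul, map_pow, map_pow, aeval_X, pow_succ]
    ring
  have hee : e * e = e := by
    have : e * (1 - e) = 0 := by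
      have : e * (1 - e) = aeval z (v * u * ((X : k[X]) ^ (r + 1) * h)) := by
        rw [h1e, he]
        simp only [map_mul, map_pow, aeval_X]
        ring
      rw [this, map_mul, hXμ, mul_zero]
    linear_combination -this
  have hfit : ∀ x : V, ι z x = 0 → ι e x = x := by
    intro x hx
    have h2 : ι (1 - e) x = 0 := by
      rw [h1e, map_mul, Module.End.mul_apply, hx, map_zero]
    rw [map_sub, map_one, LinearMap.sub_apply, Module.End.one_apply, sub_eq_zero] at h2
    exact h2.symm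
  -- Bezout for `(1 - X)^(r+1)` and `(q - X)^(r+1)`
  have hcop2 : IsCoprime ((1 - X : k[X]) ^ (r + 1)) ((C q - X : k[X]) ^ (r + 1)) := by
    apply IsCoprime.pow
    refine ⟨C (-(q - 1)⁻¹), C ((q - 1)⁻¹), ?_⟩
    have hq1 : q - 1 ≠ 0 := sub_ne_zero.mpr hq
    have : C (-(q - 1)⁻¹) * (1 - X) + C ((q - 1)⁻¹) * (C q - X)
        = C ((q - 1)⁻¹ * (q - 1)) := by
      simp only [map_neg, map_mul, map_sub, map_one]; ring
    rw [this, inv_mul_cancel₀ hq1, map_one]
  obtain ⟨α, β, hαβ⟩ := hcop2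
  set ψ : S := φ * U with hψ
  set qq : S := algebraMap k S q with hqq
  have haφ : a * φ = φ * φ + qq := by
    rw [← ha, add_mul, smul_mul_assoc, mul_comm φi φ, hφ, hqq, Algebra.algebraMap_eq_smul_one]
  have hzU : z = a - (1 + qq) * U := by
    rw [hz, hqq, add_smul, one_smul, add_mul, one_mul, Algebra.smul_def]
  have hψz : (1 - ψ) * (qq - ψ) = z * φ := by
    rw [hzU, hψ]
    linear_combination (φ * φ) * hU - haφ
  set A1 : S := aeval ψ α with hA1
  set B1 : S := aeval ψ β with hB1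
  have hAB : A1 * (1 - ψ) ^ (r + 1) + B1 * (qq - ψ) ^ (r + 1) = 1 := by
    have := congrArg (aeval ψ) hαβ
    simpa only [map_add, map_mul, map_pow, map_sub, map_one, aeval_X, aeval_C] using this
  set π₁ : S := B1 * (qq - ψ) ^ (r + 1) * e with hπ₁
  set π₂ : S := A1 * (1 - ψ) ^ (r + 1) * e with hπ₂
  have h12 : π₁ + π₂ = e := by
    rw [hπ₁, hπ₂]; linear_combination e * hAB
  have hzφe : ((1 - ψ) * (qq - ψ)) ^ (r + 1) * e = 0 := by
    rw [hψz, mul_pow, mul_comm (z ^ (r + 1)), mul_assoc, he1, mul_zero]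
  have hprod : π₁ * π₂ = 0 := by
    have : π₁ * π₂ = A1 * B1 * e * (((1 - ψ) * (qq - ψ)) ^ (r + 1) * e) := by
      rw [hπ₁, hπ₂, mul_pow]; ring
    rw [this, hzφe, mul_zero]
  have hπ₁e : π₁ * e = π₁ := by rw [hπ₁, mul_assoc, hee]
  have hπ₂e : π₂ * e = π₂ := by rw [hπ₂, mul_assoc, hee]
  have hπ₁i : π₁ * π₁ = π₁ := by
    have : π₁ * π₁ = π₁ * e - π₁ * π₂ := by rw [← h12]; ring
    rw [this, hprod, sub_zero, hπ₁e]
  have hπ₂i : π₂ * π₂ = π₂ := by
    have : π₂ * π₂ = π₂ * e - π₁ * π₂ := by rw [← h12]; ring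
    rw [this, hprod, sub_zero, hπ₂e]
  have hpow₁ : ∀ n : ℕ, π₁ ^ (n + 1) = π₁ := fun n => by
    induction n with
    | zero => rw [zero_add, pow_one]
    | succ n ih => rw [pow_succ, ih, hπ₁i]
  have hpow₂ : ∀ n : ℕ, π₂ ^ (n + 1) = π₂ := fun n => by
    induction n with
    | zero => rw [zero_add, pow_one]
    | succ n ih => rw [pow_succ, ih, hπ₂i]
  have hpowe : ∀ n : ℕ, e ^ (n + 1) = e := fun n => by
    induction n with
    | zero => rw [zero_add, pow_one]
    | succ n ih => rw [pow_succ, ih, hee]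
  -- nilpotents
  have hN₁ : ((ψ - 1) * π₁) ^ (r + 1) = 0 := by
    rw [mul_pow, hpow₁]
    have : (ψ - 1) ^ (r + 1) * π₁
        = (-1) ^ (r + 1) * B1 * (((1 - ψ) * (qq - ψ)) ^ (r + 1) * e) := by
      rw [hπ₁, mul_pow]
      have : (ψ - 1) ^ (r + 1) = (-1) ^ (r + 1) * (1 - ψ) ^ (r + 1) := by
        rw [← mul_pow]; congr 1; ring
      rw [this]; ring
    rw [this, hzφe, mul_zero]
  have hN₂ : ((ψ - qq) * π₂) ^ (r + 1) = 0 := by
    rw [mul_pow, hpow₂]
    have : (ψ - qq) ^ (r + 1) * π₂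
        = (-1) ^ (r + 1) * A1 * (((1 - ψ) * (qq - ψ)) ^ (r + 1) * e) := by
      rw [hπ₂, mul_pow]
      have : (ψ - qq) ^ (r + 1) = (-1) ^ (r + 1) * (qq - ψ) ^ (r + 1) := by
        rw [← mul_pow]; congr 1; ring
      rw [this]; ring
    rw [this, hzφe, mul_zero]
  have hN₃ : (z * U * e) ^ (r + 1) = 0 := by
    rw [mul_pow, mul_pow, hpowe, mul_assoc, mul_comm (U ^ (r + 1)), ← mul_assoc, he1, zero_mul]
  -- traces
  set τ : S → k := fun x => LinearMap.trace k V (ι x) with hτ
  have τadd : ∀ x y, τ (x + y) = τ x + τ y := fun x y => by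
    simp only [hτ, map_add]
  have τsmul : ∀ (c : k) x, τ (algebraMap k S c * x) = c * τ x := fun c x => by
    simp only [hτ]
    rw [← Algebra.smul_def, map_smul, map_smul, smul_eq_mul]
  have t1 : τ (ψ * π₁) = τ π₁ := by
    have : ψ * π₁ = π₁ + (ψ - 1) * π₁ := by ring
    rw [this, τadd]
    have : τ ((ψ - 1) * π₁) = 0 := trace_eq_zero_of_pow_eq_zero ι hN₁
    rw [this, add_zero]
  have t2 : τ (ψ * π₂) = q * τ π₂ := by
    have : ψ * π₂ = qq * π₂ + (ψ - qq) * π₂ := by ring
    rw [this, τadd, hqq, τsmul]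
    have : τ ((ψ - algebraMap k S q) * π₂) = 0 := trace_eq_zero_of_pow_eq_zero ι hN₂
    rw [this, add_zero]
  have t3 : τ (φ * (U * e)) = τ π₁ + q * τ π₂ := by
    have : φ * (U * e) = ψ * π₁ + ψ * π₂ := by
      rw [hψ, ← mul_add, h12]; ring
    rw [this, τadd, t1, t2]
  have t4 : τ (a * (U * e)) = (1 + q) * (τ π₁ + τ π₂) := by
    have : a * (U * e) = z * U * e + algebraMap k S (1 + q) * e := by
      rw [hzU, map_add, map_one, ← hqq]
      linear_combination ((1 + qq) * e) * hU
    rw [this, τadd, τsmul]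
    have hn : τ (z * U * e) = 0 := trace_eq_zero_of_pow_eq_zero ι hN₃
    have hte : τ e = τ π₁ + τ π₂ := by rw [← h12, τadd]
    rw [hn, zero_add, hte]
  have t5 : τ π₁ = τ π₂ := by
    have h5 := htr (v * h)
    rw [← he] at h5
    change 2 * τ (φ * (U * e)) = τ (a * (U * e)) at h5
    rw [t3, t4] at h5
    have hq1 : (1 - q) ≠ 0 := sub_ne_zero.mpr (Ne.symm hq)
    have : (1 - q) * (τ π₁ - τ π₂) = 0 := by linear_combination h5
    rcases mul_eq_zero.mp this with h0 | h0
    · exact absurd h0 hq1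
    · exact sub_eq_zero.mp h0
  -- back to `End V`
  have hP₁ : IsIdempotentElem (ι π₁) := by
    show ι π₁ * ι π₁ = ι π₁
    rw [← map_mul, hπ₁i]
  have hP₂ : IsIdempotentElem (ι π₂) := by
    show ι π₂ * ι π₂ = ι π₂
    rw [← map_mul, hπ₂i]
  have hr₁ := (LinearMap.IsIdempotentElem.isProj_range (ι π₁) hP₁).trace
  have hr₂ := (LinearMap.IsIdempotentElem.isProj_range (ι π₂) hP₂).trace
  have hrk : finrank k (LinearMap.range (ι π₁)) = finrank k (LinearMap.range (ι π₂)) := by
    have : (finrank k (LinearMap.range (ι π₁)) : k) = finrank k (LinearMap.range (ι π₂)) := by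
      rw [← hr₁, ← hr₂]; exact t5
    exact_mod_cast this
  have hdisj : Disjoint (LinearMap.range (ι π₁)) (LinearMap.range (ι π₂)) := by
    rw [Submodule.disjoint_def]
    rintro x ⟨y, rfl⟩ ⟨y', hy'⟩
    have : ι π₁ y = ι π₁ (ι π₁ y) := by
      rw [← Module.End.mul_apply, ← map_mul, hπ₁i]
    rw [this, ← hy', ← Module.End.mul_apply, ← map_mul, hprod, map_zero, LinearMap.zero_apply]
  have hsum := Submodule.finrank_add_finrank_le_of_disjoint hdisj
  -- `ker (U - φ) ≤ range π₁`
  have hker : LinearMap.ker (ι U - ι φ) ≤ LinearMap.range (ι π₁) := by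
    intro x hx
    rw [LinearMap.mem_ker] at hx
    -- `(1 - ψ) x = 0`
    have hx1 : ι (1 - ψ) x = 0 := by
      have e1 : U * (U - φ) = 1 - ψ := by rw [hψ]; linear_combination hU
      rw [← e1, map_mul, Module.End.mul_apply, map_sub, hx, map_zero]
    -- `z x = 0`
    have hx2 : ι z x = 0 := by
      have e2 : z = φi * (qq - ψ) * (1 - ψ) := by
        have : φi * (qq - ψ) * (1 - ψ) = φi * ((1 - ψ) * (qq - ψ)) := by ring
        rw [this, hψz]
        linear_combination (-z) * hφ
      rw [e2, map_mul, Module.End.mul_apply, hx1, map_zero]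
    have hx3 : ι e x = x := hfit x hx2
    have hx4 : ι π₂ x = 0 := by
      have e4 : π₂ = A1 * e * (1 - ψ) ^ r * (1 - ψ) := by rw [hπ₂, pow_succ]; ring
      rw [e4, map_mul, Module.End.mul_apply, hx1, map_zero]
    refine ⟨x, ?_⟩
    have : ι e x = ι π₁ x + ι π₂ x := by rw [← h12, map_add, LinearMap.add_apply]
    rw [hx4, add_zero, hx3] at this
    exact this.symm
  have hle := Submodule.finrank_mono hker
  omega

end Core

section Main

variable {k : Type*} [Field k] [CharZero k] {V : Type*} [AddCommGroup V] [Module k V]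
  [FiniteDimensional k V] {G : Type*} [Group G]

open scoped IsMulCommutative in
/-- **Half-rank theorem.**  `A` a commutative subalgebra of `End_k V` commuting with the group
action `ρ`, `(R1)` `ρ g + ε g • ρ g⁻¹ = a g ∈ A`, `c² = 1`, `ε c = -1`, `tr (t ∘ ρ c) = 0` on `A`;
`φ ∈ G` with `ε φ = q ≠ 1`, `U ∈ A` an involution.  Then `2 · dim ker (U - ρ φ) ≤ dim V`. -/
theorem two_mul_finrank_ker_le (ρ : G →* Module.End k V) (A : Subalgebra k (Module.End k V))
    (hAcomm : ∀ s ∈ A, ∀ t ∈ A, s * t = t * s) (hAρ : ∀ g, ∀ t ∈ A, ρ g * t = t * ρ g)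
    (a : G → Module.End k V) (ha : ∀ g, a g ∈ A) (ε : G →* k)
    (hrel : ∀ g, ρ g + ε g • ρ g⁻¹ = a g) {c : G} (hc : c * c = 1) (hεc : ε c = -1)
    (htr : ∀ t ∈ A, LinearMap.trace k V (t * ρ c) = 0)
    (φ : G) {q : k} (hεφ : ε φ = q) (hq : q ≠ 1)
    {U : Module.End k V} (hU : U ∈ A) (hUU : U * U = 1) :
    2 * finrank k (LinearMap.ker (U - ρ φ)) ≤ finrank k V := by
  classical
  set s : Set (Module.End k V) := (A : Set (Module.End k V)) ∪ {ρ φ, ρ φ⁻¹} with hs
  have hφφi : ρ φ * ρ φ⁻¹ = 1 := by rw [← map_mul, mul_inv_cancel, map_one]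
  have hφiφ : ρ φ⁻¹ * ρ φ = 1 := by rw [← map_mul, inv_mul_cancel, map_one]
  have hcomm : ∀ x ∈ s, ∀ y ∈ s, x * y = y * x := by
    rintro x (hx | hx | hx) y (hy | hy | hy)
    · exact hAcomm x hx y hy
    · rw [hy]; exact (hAρ φ x hx).symm
    · rw [Set.mem_singleton_iff] at hy; rw [hy]; exact (hAρ φ⁻¹ x hx).symm
    · rw [hx]; exact hAρ φ y hy
    · rw [hx, hy]
    · rw [Set.mem_singleton_iff] at hy; rw [hx, hy, hφφi, hφiφ]
    · rw [Set.mem_singleton_iff] at hx; rw [hx]; exact hAρ φ⁻¹ y hy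
    · rw [Set.mem_singleton_iff] at hx; rw [hx, hy, hφφi, hφiφ]
    · rw [Set.mem_singleton_iff] at hx hy; rw [hx, hy]
  have hmc : IsMulCommutative (Algebra.adjoin k s) := Algebra.isMulCommutative_adjoin k hcomm
  have hAs : ∀ t ∈ A, t ∈ Algebra.adjoin k s := fun t ht =>
    Algebra.subset_adjoin (Or.inl ht)
  have hφs : ρ φ ∈ Algebra.adjoin k s := Algebra.subset_adjoin (Or.inr (Or.inl rfl))
  have hφis : ρ φ⁻¹ ∈ Algebra.adjoin k s := Algebra.subset_adjoin (Or.inr (Or.inr rfl))
  have key := core (k := k) (V := V) (S := Algebra.adjoin k s) (Algebra.adjoin k s).val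
    Subtype.val_injective ⟨U, hAs U hU⟩ ⟨ρ φ, hφs⟩ ⟨ρ φ⁻¹, hφis⟩ ⟨a φ, hAs _ (ha φ)⟩ q hq
    (Subtype.ext hUU) (Subtype.ext hφφi)
    (Subtype.ext (by
      show ρ φ + q • ρ φ⁻¹ = a φ
      rw [← hεφ]; exact hrel φ))
    (by
      intro p
      set z' : Algebra.adjoin k s :=
        (⟨a φ, hAs _ (ha φ)⟩ : Algebra.adjoin k s) - (1 + q) • ⟨U, hAs U hU⟩ with hz'
      have hz'A : ((z' : Algebra.adjoin k s) : Module.End k V) ∈ A := by
        show a φ - (1 + q) • U ∈ A
        exact A.sub_mem (ha φ) (A.smul_mem hU _)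
      have hpA : (((aeval z' p : Algebra.adjoin k s)) : Module.End k V) ∈ A := by
        have : (((aeval z' p : Algebra.adjoin k s)) : Module.End k V)
            = aeval ((z' : Algebra.adjoin k s) : Module.End k V) p :=
          (Polynomial.aeval_algHom_apply (Algebra.adjoin k s).val z' p).symm
        rw [this]
        have := Polynomial.aeval_mem_adjoin_singleton k
          (((z' : Algebra.adjoin k s)) : Module.End k V) (p := p)
        exact (Algebra.adjoin_le (Set.singleton_subset_iff.mpr hz'A)) this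
      have htA : U * (((aeval z' p : Algebra.adjoin k s)) : Module.End k V) ∈ A :=
        A.mul_mem hU hpA
      have := two_mul_trace_mul ρ a ε A hrel ha hc hεc (hAρ c) htr φ htA
      exact this)
  exact key

/-- Range form: `dim V ≤ 2 · rank (U - ρ φ)`. -/
theorem finrank_le_two_mul_finrank_range (ρ : G →* Module.End k V)
    (A : Subalgebra k (Module.End k V))
    (hAcomm : ∀ s ∈ A, ∀ t ∈ A, s * t = t * s) (hAρ : ∀ g, ∀ t ∈ A, ρ g * t = t * ρ g)
    (a : G → Module.End k V) (ha : ∀ g, a g ∈ A) (ε : G →* k)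
    (hrel : ∀ g, ρ g + ε g • ρ g⁻¹ = a g) {c : G} (hc : c * c = 1) (hεc : ε c = -1)
    (htr : ∀ t ∈ A, LinearMap.trace k V (t * ρ c) = 0)
    (φ : G) {q : k} (hεφ : ε φ = q) (hq : q ≠ 1)
    {U : Module.End k V} (hU : U ∈ A) (hUU : U * U = 1) :
    finrank k V ≤ 2 * finrank k (LinearMap.range (U - ρ φ)) := by
  have h1 := two_mul_finrank_ker_le ρ A hAcomm hAρ a ha ε hrel hc hεc htr φ hεφ hq hU hUU
  have h2 := LinearMap.finrank_range_add_finrank_ker (U - ρ φ)
  omega

end Main

end Fermat.Agent.GK.HalfRank
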