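/-
GATE-K / S35 branch, ADAPTER part 2 (helper17).

* `intertwine_mvPolynomial` : two polynomial actions and an additive map intertwining the
  generators intertwine every polynomial;
* `map_kumHecke_aeval_eq_zero` : for a map `φ : Kum_m(F_N) →+ Kum_m(F_N')` (the norms `α_*`, `β_*`)
  intertwining the `T_{ℓ_i}`, and `t = P(T_{ℓ_i})` with `P(T_{ℓ_i}) = 0` in `heckeAlgebra N' 2 S`
  (helper24's old-killer): `φ (kumHecke t k) = 0`, i.e. `t • Kum ⊂ ker φ`.
-/
import Mathlib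
import Fermat.Agent.GK.Tate.KumHecke

set_option autoImplicit false

noncomputable section

namespace Fermat.Agent.GK.Tate.KumHecke

open CuspForm CongruenceSubgroup
open Fermat.Agent.GJ Fermat.Agent.GJ.KumGroup Fermat.Agent.GJ.Kum.KumType Fermat.Agent.GJ.KumTower
open Fermat.Agent.GJ.EigAsm

/-- **intertwining on generators ⟹ intertwining for every polynomial**: two polynomial actions
`f₁, f₂` (ring homs from `MvPolynomial ι ℤ` to endomorphism rings) and an additive map `φ` with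
`φ ∘ f₁ (X i) = f₂ (X i) ∘ φ` for all `i` satisfy `φ ∘ f₁ P = f₂ P ∘ φ` for all `P`. -/
theorem intertwine_mvPolynomial {ι : Type*} {R₁ R₂ : Type*} [Semiring R₁] [Semiring R₂]
    {M₁ M₂ : Type*} [AddCommGroup M₁] [AddCommGroup M₂] [Module R₁ M₁] [Module R₂ M₂]
    (f₁ : MvPolynomial ι ℤ →+* Module.End R₁ M₁) (f₂ : MvPolynomial ι ℤ →+* Module.End R₂ M₂)
    (φ : M₁ →+ M₂)
    (hφ : ∀ (i : ι) (k : M₁), φ (f₁ (MvPolynomial.X i) k) = f₂ (MvPolynomial.X i) (φ k))
    (P : MvPolynomial ι ℤ) (k : M₁) : φ (f₁ P k) = f₂ P (φ k) := by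
  revert k
  induction P using MvPolynomial.induction_on with
  | C a =>
    intro k
    have eC : (MvPolynomial.C a : MvPolynomial ι ℤ) = ((a : ℤ) : MvPolynomial ι ℤ) := by
      rw [← MvPolynomial.algebraMap_eq, eq_intCast]
    have e1 : f₁ (MvPolynomial.C a) = (a : Module.End R₁ M₁) := by
      rw [eC]; exact map_intCast f₁ a
    have e2 : f₂ (MvPolynomial.C a) = (a : Module.End R₂ M₂) := by
      rw [eC]; exact map_intCast f₂ a
    rw [e1, e2, Module.End.intCast_apply, Module.End.intCast_apply, map_zsmul]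
  | add p q hp hq =>
    intro k
    rw [map_add, map_add, LinearMap.add_apply, LinearMap.add_apply, map_add, hp, hq]
  | mul_X p i hp =>
    intro k
    rw [map_mul, map_mul, Module.End.mul_apply, Module.End.mul_apply, hp, hφ]

section Levels

variable {N N' : ℕ} [NeZero N] [NeZero N'] (S : Set ℕ) (m : ℕ) [NeZero m] {ζ ζ' : ℂ}

/-- **a Hecke-equivariant map to a lower level kills `t • Kum` when `t = P(T_ℓ)` vanishes at the
lower level.**  `φ : Kum_m(F_N) →+ Kum_m(F_N')` (e.g. the norms `α_*`, `β_*`) intertwining every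
`T_{ℓ_i}`; `P(T_{ℓ_i}) = 0` in `heckeAlgebra N' 2 S`. -/
theorem map_kumHecke_aeval_eq_zero (hζ : IsPrimitiveRoot ζ m) (hζ' : IsPrimitiveRoot ζ' m)
    {r : ℕ} (ℓ : Fin r → ℕ) (hℓ : ∀ i, (ℓ i).Prime) (hℓN : ∀ i, ¬ ℓ i ∣ N)
    (hℓN' : ∀ i, ¬ ℓ i ∣ N') (hℓS : ∀ i, ℓ i ∉ S)
    (φ : Additive (Kum Kb (FK N) m) →+ Additive (Kum Kb (FK N') m))
    (hφ : ∀ (i : Fin r) (k : Additive (Kum Kb (FK N) m)),
      φ (kumHecke N S m hζ (heckeAlgebra.T (hℓ i) (hℓN i) (hℓS i)) k)
        = kumHecke N' S m hζ' (heckeAlgebra.T (hℓ i) (hℓN' i) (hℓS i)) (φ k))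
    (P : MvPolynomial (Fin r) ℤ)
    (hP : MvPolynomial.aeval
      (fun i => (heckeAlgebra.T (hℓ i) (hℓN' i) (hℓS i) : ↥(heckeAlgebra N' 2 S))) P = 0)
    (k : Additive (Kum Kb (FK N) m)) :
    φ (kumHecke N S m hζ (MvPolynomial.aeval
      (fun i => (heckeAlgebra.T (hℓ i) (hℓN i) (hℓS i) : ↥(heckeAlgebra N 2 S))) P) k) = 0 := by
  have h := intertwine_mvPolynomial
    ((kumHecke N S m hζ).comp (MvPolynomial.aeval
      (fun i => (heckeAlgebra.T (hℓ i) (hℓN i) (hℓS i) : ↥(heckeAlgebra N 2 S)))).toRingHom)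
    ((kumHecke N' S m hζ').comp (MvPolynomial.aeval
      (fun i => (heckeAlgebra.T (hℓ i) (hℓN' i) (hℓS i) : ↥(heckeAlgebra N' 2 S)))).toRingHom)
    φ (fun i k => by
      simp only [RingHom.comp_apply, AlgHom.toRingHom_eq_coe, RingHom.coe_coe,
        MvPolynomial.aeval_X]
      exact hφ i k) P k
  simp only [RingHom.comp_apply, AlgHom.toRingHom_eq_coe, RingHom.coe_coe] at h
  rw [h, hP, map_zero, LinearMap.zero_apply]

end Levels

end Fermat.Agent.GK.Tate.KumHecke
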