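/-
GATE-K / N12 S35 TATE-SIDE (helper17), brick S35-IOTA: in the frozen S35 the embedding
`iota : chig.range →+* O'` is automatically injective (`chig.range` is integral over `ℤ`, `O'` is a
domain of characteristic zero), so `chig t ≠ 0 → (iota ∘ chig.rangeRestrict) t ≠ 0`.
-/
import Mathlib

set_option autoImplicit false

open Polynomial

namespace Fermat.Agent.GK.Tate.S35Iota

/-- A ring homomorphism from an integral `ℤ`-algebra which is a domain to a domain of
characteristic zero is injective. -/
theorem injective_of_integral {R : Type*} [CommRing R] [IsDomain R] [Algebra.IsIntegral ℤ R]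
    {O : Type*} [CommRing O] [IsDomain O] [CharZero O] (ι : R →+* O) : Function.Injective ι := by
  rw [RingHom.injective_iff_ker_eq_bot]
  apply Ideal.eq_bot_of_comap_eq_bot (R := ℤ)
  rw [eq_bot_iff]
  intro n hn
  rw [Ideal.mem_comap, RingHom.mem_ker, eq_intCast, map_intCast] at hn
  rw [Ideal.mem_bot]
  exact Int.cast_injective (α := O) (by rw [hn, Int.cast_zero])

/-- the case used for S35: `ι : χ.range →+* O` for a character `χ` of a finite `ℤ`-algebra -/
theorem injective_of_range {A : Type*} [CommRing A] [Module.Finite ℤ A] (χ : A →+* ℂ)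
    {O : Type*} [CommRing O] [IsDomain O] [CharZero O] (ι : χ.range →+* O) :
    Function.Injective ι := by
  have : Algebra.IsIntegral ℤ χ.range := by
    refine ⟨fun x => ?_⟩
    obtain ⟨a, ha⟩ := x.2
    have hx : x = χ.rangeRestrict a := Subtype.ext ha.symm
    rw [hx]
    have ha : IsIntegral ℤ a := Algebra.IsIntegral.isIntegral a
    exact ha.map (χ.rangeRestrict.toIntAlgHom)
  exact injective_of_integral ι

end Fermat.Agent.GK.Tate.S35Iota
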