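/-
GATE-K / abstract algebra (helper25): the **complex-conjugation trace trick**.

Let `ρ : G →* End_R(X)` satisfy the two-dimensional pseudo-representation relation
`ρ g + ε(g) • ρ g⁻¹ = a(g) • 1` for all `g` (`a g` a scalar, `ε` a character), and let `c ∈ G`
be an involution with `ε c = -1` (complex conjugation) whose trace on `X` vanishes
(the two eigenspaces of `c` have the same rank).  Then for EVERY `g`

  `2 * trace (ρ g) = a g * rank X`,

i.e. `X` "looks like" `rank X / 2` copies of a two-dimensional representation with trace `a`,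
WITHOUT any irreducibility / multiplicity-one / Weil-pairing input.  Consequence: if `ρ g`
satisfies `(ρ g - λ)(ρ g - μ) = 0` with `λ ≠ μ`, `a g = λ + μ`, then both eigenspaces have
dimension exactly `rank X / 2`.

This fills the gap `dim E_λ(φ | V_{θ,λ}) ≤ ½ dim V_{θ,λ}` (board 2121) in the counting
deduction of board 2088 (S35 clause 2, and the hedge route to S34).

Mathlib only.
-/
import Mathlib

set_option autoImplicit false

namespace Fermat.Agent.GK.TraceHalf

open Module LinearMap

section Ring

variable {R : Type*} [CommRing R] {X : Type*} [AddCommGroup X] [Module R X]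
variable {G : Type*} [Group G]

/-- The two-dimensional pseudo-representation relation `ρ g + ε(g) • ρ g⁻¹ = a(g) • 1`. -/
def QuadRel (ρ : G →* Module.End R X) (a : G → R) (ε : G →* R) : Prop :=
  ∀ g : G, ρ g + ε g • ρ g⁻¹ = a g • (1 : Module.End R X)

variable {ρ : G →* Module.End R X} {a : G → R} {ε : G →* R}

/-- The polarised Cayley–Hamilton identity against an involution `c` with `ε c = -1`:
`ρ c * ρ g + ρ g * ρ c = a g • ρ c + a (c g) • 1`. -/
theorem anticomm_identity (h : QuadRel ρ a ε) {c : G} (hc : c * c = 1) (hεc : ε c = -1)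
    (g : G) :
    ρ c * ρ g + ρ g * ρ c = a g • ρ c + a (c * g) • (1 : Module.End R X) := by
  have hcinv : c⁻¹ = c := inv_eq_of_mul_eq_one_left hc
  have h1 := h g
  have h2 := h (c * g)
  rw [mul_inv_rev, hcinv, map_mul, map_mul, map_mul, hεc] at h2
  -- h1 : ρ g + ε g • ρ g⁻¹ = a g • 1
  -- h2 : ρ c * ρ g + (-1 * ε g) • (ρ g⁻¹ * ρ c) = a (c * g) • 1
  have h3 : ε g • ρ g⁻¹ = a g • (1 : Module.End R X) - ρ g := eq_sub_of_add_eq' h1
  have h4 : (-1 * ε g) • (ρ g⁻¹ * ρ c) = -((ε g • ρ g⁻¹) * ρ c) := by
    rw [neg_one_mul, neg_smul, smul_mul_assoc]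
  rw [h4, h3, sub_mul, smul_mul_assoc, one_mul] at h2
  -- h2 : ρ c * ρ g + -(a g • ρ c - ρ g * ρ c) = a (c * g) • 1
  rw [← h2]
  abel

variable [Module.Free R X] [Module.Finite R X]

/-- **Trace trick.** If the involution `c` (with `ε c = -1`) has trace zero on `X`, then every
`ρ g` has trace `a g * rank X / 2`. -/
theorem two_mul_trace (h : QuadRel ρ a ε) {c : G} (hc : c * c = 1) (hεc : ε c = -1)
    (htr : trace R X (ρ c) = 0) (g : G) :
    2 * trace R X (ρ g) = a g * (finrank R X : R) := by
  have hid := anticomm_identity h hc hεc (c * g)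
  have hcg : c * (c * g) = g := by rw [← mul_assoc, hc, one_mul]
  rw [hcg] at hid
  have e1 : ρ c * ρ (c * g) = ρ g := by rw [← map_mul, hcg]
  have key := congrArg (trace R X) hid
  rw [map_add, map_add, map_smul, map_smul, htr, smul_zero, zero_add, e1,
    trace_mul_comm R (ρ (c * g)) (ρ c), e1, trace_one, smul_eq_mul] at key
  rw [two_mul]
  exact key

end Ring

section Field

variable {K : Type*} [Field K] [CharZero K] {X : Type*} [AddCommGroup X] [Module K X]
  [FiniteDimensional K X]
variable {G : Type*} [Group G]
variable {ρ : G →* Module.End K X} {a : G → K} {ε : G →* K}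

/-- If `ρ g` is killed by `(T - lam)(T - mu)` with `lam ≠ mu` and `a g = lam + mu`, then (under the
hypotheses of the trace trick) the `lam`-eigenspace has dimension exactly half of `X`. -/
theorem two_mul_finrank_ker (h : QuadRel ρ a ε) {c : G} (hc : c * c = 1) (hεc : ε c = -1)
    (htr : trace K X (ρ c) = 0) (g : G) {lam mu : K} (hne : lam ≠ mu) (hag : a g = lam + mu)
    (hquad : (ρ g - lam • (1 : Module.End K X)) * (ρ g - mu • (1 : Module.End K X)) = 0) :
    2 * finrank K (LinearMap.ker (ρ g - lam • (1 : Module.End K X))) = finrank K X := by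
  have hd : lam - mu ≠ 0 := sub_ne_zero.mpr hne
  set y : Module.End K X := ρ g with hy
  set P : Module.End K X := (lam - mu)⁻¹ • (y - mu • (1 : Module.End K X)) with hP
  have hproj : LinearMap.IsProj (LinearMap.ker (y - lam • (1 : Module.End K X))) P := by
    constructor
    · intro x
      rw [LinearMap.mem_ker, hP, LinearMap.smul_apply, map_smul]
      have := LinearMap.congr_fun hquad x
      rw [Module.End.mul_apply, LinearMap.zero_apply] at this
      rw [this, smul_zero]
    · intro x hx
      rw [LinearMap.mem_ker, LinearMap.sub_apply, LinearMap.smul_apply, Module.End.one_apply,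
        sub_eq_zero] at hx
      rw [hP, LinearMap.smul_apply, LinearMap.sub_apply, LinearMap.smul_apply,
        Module.End.one_apply, hx, ← sub_smul, smul_smul, inv_mul_cancel₀ hd, one_smul]
  have htrP := hproj.trace
  have h2 := two_mul_trace h hc hεc htr g
  rw [← hy] at h2
  have htrP' : trace K X P = (lam - mu)⁻¹ * (trace K X y - mu * (finrank K X : K)) := by
    rw [hP, map_smul, map_sub, map_smul, trace_one, smul_eq_mul, smul_eq_mul]
  have hfin : (2 : K) * (finrank K (LinearMap.ker (y - lam • (1 : Module.End K X))) : K)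
      = (finrank K X : K) := by
    rw [← htrP, htrP']
    have : (2 : K) * ((lam - mu)⁻¹ * (trace K X y - mu * (finrank K X : K)))
        = (lam - mu)⁻¹ * (2 * trace K X y - 2 * mu * (finrank K X : K)) := by ring
    rw [this, h2, hag]
    field_simp
    ring
  exact_mod_cast hfin

/-- Same hypotheses: the image of `ρ g - lam` has dimension exactly half of `X`. -/
theorem two_mul_finrank_range (h : QuadRel ρ a ε) {c : G} (hc : c * c = 1) (hεc : ε c = -1)
    (htr : trace K X (ρ c) = 0) (g : G) {lam mu : K} (hne : lam ≠ mu) (hag : a g = lam + mu)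
    (hquad : (ρ g - lam • (1 : Module.End K X)) * (ρ g - mu • (1 : Module.End K X)) = 0) :
    2 * finrank K (LinearMap.range (ρ g - lam • (1 : Module.End K X))) = finrank K X := by
  have h1 := two_mul_finrank_ker h hc hεc htr g hne hag hquad
  have h2 := LinearMap.finrank_range_add_finrank_ker (ρ g - lam • (1 : Module.End K X))
  omega

end Field

end Fermat.Agent.GK.TraceHalf
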