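/-
GATE-K (S35 branch) / GATE-L (h) brick (helper25): **the character involution has trace zero
against the whole Hecke ring of the lattice.**

`Λ = Lam N = Hom_par(Γ₀(N), ℤ)`, `latAlg N ⊆ End_ℤ Λ` the commutative ring generated by ALL
`latT N l` (`l ∣ N` included: `U_q` is in it), `latI N` the involution `Φ ↦ Φ ∘ (γ ↦ ε γ ε)`
(`charInvolution`).  Then

  `trace_mul_latI : ∀ t ∈ latAlg N, LinearMap.trace ℤ Λ (t * latI N) = 0`.

Proof: over `ℂ`, Eichler–Shimura (S21) identifies `Hom_par(Γ₀(N), ℂ)` with `S₂ × S₂` via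
`per(f, g) = (1 + ι) pm f + (1 - ι) pm g`; there `ι` is `(f, g) ↦ (f, -g)` and `t = P(T)` acts
diagonally (`periodHomPair_heckeEvalForms`), so `t ι` is `(f, g) ↦ (P(T) f, - P(T) g)`, of trace
`tr P(T) - tr P(T) = 0`.  The integral basis `Φ i` of `Λ` is a complex basis of `Hom_par(ℂ)`
(`ZStruct`), so the integral trace is the complex one.

This is hypothesis (TR) of `GK/Tate/HalfRank.lean` on the lattice side (complex conjugation acts on
the Tate module through `± latI`).
-/
import Mathlib
import Fermat.Agent.GJ.J2.LatAct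
import Fermat.Agent.S21_helper86.Final

set_option autoImplicit false
set_option linter.unusedSectionVars false

open scoped MatrixGroups
open CongruenceSubgroup ModularCurve ModularCurve.Period CuspForm

namespace Fermat.Agent.GK.TraceInvol

open Fermat.Agent.GJ.J2.ZStruct Fermat.Agent.GJ.J2.Lat Fermat.Agent.S21_helper65

noncomputable section

variable (N : ℕ) [NeZero N]

/-- the character involution on the lattice `Λ` -/
def latI : Module.End ℤ (Lam N) where
  toFun Φ := ⟨charInvolution N ℤ ℤ (Φ : Additive (Gamma0 N) →+ ℤ),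
    charInvolution_mem_parabolicHoms N ℤ ℤ Φ.2⟩
  map_add' _ _ := Subtype.ext (map_add (charInvolution N ℤ ℤ) _ _)
  map_smul' c _ := Subtype.ext (map_smul (charInvolution N ℤ ℤ) c _)

@[simp] theorem coe_latI (Φ : Lam N) :
    ((latI N Φ : Lam N) : Additive (Gamma0 N) →+ ℤ)
      = charInvolution N ℤ ℤ (Φ : Additive (Gamma0 N) →+ ℤ) := rfl

theorem latI_latI (Φ : Lam N) : latI N (latI N Φ) = Φ :=
  Subtype.ext (charInvolution_charInvolution N ℤ ℤ _)

theorem latI_mul_latI : latI N * latI N = 1 :=
  LinearMap.ext fun Φ => latI_latI N Φ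

/-- complexification commutes with the involution -/
theorem latC_latI (Φ : Lam N) : latC N (latI N Φ) = charInvolution N ℂ ℂ (latC N Φ) := by
  refine AddMonoidHom.ext fun γ => ?_
  rfl

/-- `latI` commutes with the lattice Hecke operators (all primes). -/
theorem latT_latI (l : Nat.Primes) (Φ : Lam N) : latT N l (latI N Φ) = latI N (latT N l Φ) := by
  apply latC_injective N
  rw [latC_latT, latC_latI, latC_latI, latC_latT, cohGen_charInvolution]

/-- on period pairs the involution is `(f, g) ↦ (f, -g)` -/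
theorem charInvolution_periodHomPair (f g : CuspForm (Gamma0 N) 2) :
    charInvolution N ℂ ℂ (periodHomPair N (f, g)) = periodHomPair N (f, -g) := by
  have hneg : periodMap N (-g) = -periodMap N g := by
    have := (periodMapLinear N).map_neg g
    simpa using this
  rw [periodHomPair_apply, periodHomPair_apply, hneg, map_add, map_add, map_sub, map_neg,
    charInvolution_charInvolution, charInvolution_charInvolution]
  abel

/-- Eichler–Shimura as a linear equivalence onto the parabolic homs -/
def esEquiv : (CuspForm (Gamma0 N) 2 × CuspForm (Gamma0 N) 2) ≃ₗ[ℂ]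
    ↥(parabolicHoms ℂ (Gamma0 N) ℂ) :=
  LinearEquiv.ofBijective
    (LinearMap.codRestrict (parabolicHoms ℂ (Gamma0 N) ℂ) (periodHomPair N) (fun x => by
      rw [← (Fermat.Agent.S21.result N).2]
      exact LinearMap.mem_range_self _ x))
    ⟨fun x y hxy => (Fermat.Agent.S21.result N).1 (congrArg Subtype.val hxy), fun y => by
      have hy : (y : Additive (Gamma0 N) →+ ℂ) ∈ LinearMap.range (periodHomPair N) := by
        rw [(Fermat.Agent.S21.result N).2]
        exact y.2
      obtain ⟨x, hx⟩ := hy
      exact ⟨x, Subtype.ext hx⟩⟩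

@[simp] theorem coe_esEquiv (x : CuspForm (Gamma0 N) 2 × CuspForm (Gamma0 N) 2) :
    ((esEquiv N x : ↥(parabolicHoms ℂ (Gamma0 N) ℂ)) : Additive (Gamma0 N) →+ ℂ)
      = periodHomPair N x := rfl

/-- the complexified lattice element as a parabolic hom -/
def latCpar (Φ : Lam N) : ↥(parabolicHoms ℂ (Gamma0 N) ℂ) :=
  ⟨latC N Φ, latC_isParabolicHom N Φ⟩

theorem equivComplex_latCpar (Φ : Lam N) (i : I N) :
    equivComplex N (latCpar N Φ) i = ((equivInt N Φ i : ℤ) : ℂ) := rfl

/-- the integral basis -/
def basisZ : Module.Basis (I N) ℤ (Lam N) := Module.Basis.ofEquivFun (equivInt N)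

/-- the complex basis -/
def basisC : Module.Basis (I N) ℂ ↥(parabolicHoms ℂ (Gamma0 N) ℂ) :=
  Module.Basis.ofEquivFun (equivComplex N)

theorem basisC_eq (i : I N) : basisC N i = latCpar N (basisZ N i) := by
  classical
  apply (equivComplex N).injective
  funext j
  rw [equivComplex_latCpar]
  have h1 : equivComplex N (basisC N i) = Pi.single i 1 := by
    rw [basisC, Module.Basis.coe_ofEquivFun, LinearEquiv.apply_symm_apply]
  have h2 : equivInt N (basisZ N i) = Pi.single i 1 := by
    rw [basisZ, Module.Basis.coe_ofEquivFun, LinearEquiv.apply_symm_apply]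
  rw [h1, h2, Pi.single_apply, Pi.single_apply]
  split_ifs <;> simp

/-- **Trace zero**: `tr_ℤ (t ∘ ι | Λ) = 0` for every `t` in the Hecke ring of the lattice. -/
theorem trace_mul_latI (t : Module.End ℤ (Lam N)) (ht : t ∈ latAlg N) :
    LinearMap.trace ℤ (Lam N) (t * latI N) = 0 := by
  classical
  obtain ⟨P, hP⟩ := evLat_surjective N ⟨t, ht⟩
  have hPt : (evLat N P : Module.End ℤ (Lam N)) = t := congrArg Subtype.val hP
  have hfin : FiniteDimensional ℂ (CuspForm (Gamma0 N) 2) :=
    (Fermat.Agent.S21_helper86.finrank_cuspForm_two_le N).1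
  set Tf : Module.End ℂ (CuspForm (Gamma0 N) 2) :=
    (heckeEvalForms N 2 P : Module.End ℂ (CuspForm (Gamma0 N) 2)) with hTf
  set D : Module.End ℂ (CuspForm (Gamma0 N) 2 × CuspForm (Gamma0 N) 2) :=
    LinearMap.prodMap Tf (-Tf) with hD
  have hDtr : LinearMap.trace ℂ _ D = 0 := by
    rw [hD, LinearMap.trace_prodMap', map_neg, add_neg_cancel]
  set τ : Module.End ℂ ↥(parabolicHoms ℂ (Gamma0 N) ℂ) := (esEquiv N).conj D with hτ
  have hτtr : LinearMap.trace ℂ _ τ = 0 := by
    rw [hτ, LinearMap.trace_conj', hDtr]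
  -- the key equivariance
  have key : ∀ Φ : Lam N, τ (latCpar N Φ) = latCpar N ((t * latI N) Φ) := by
    intro Φ
    obtain ⟨⟨f, g⟩, hfg⟩ := exists_periodHomPair_eq_latC N Φ
    have h1 : (esEquiv N).symm (latCpar N Φ) = (f, g) := by
      rw [LinearEquiv.symm_apply_eq]
      exact Subtype.ext hfg.symm
    have h2 : periodHomPair N (f, -g) = latC N (latI N Φ) := by
      rw [latC_latI, ← hfg, charInvolution_periodHomPair]
    have h3 := periodHomPair_heckeEvalForms N P f (-g) (latI N Φ) h2
    rw [hPt] at h3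
    apply Subtype.ext
    rw [hτ, LinearEquiv.conj_apply, LinearMap.comp_apply, LinearMap.comp_apply,
      LinearEquiv.coe_coe, LinearEquiv.coe_coe, h1, coe_esEquiv, hD, LinearMap.prodMap_apply,
      LinearMap.neg_apply]
    show periodHomPair N (Tf f, -Tf g) = latC N (t (latI N Φ))
    rw [← h3, map_neg]
  -- compare the two traces in the integral basis
  have e1 : LinearMap.trace ℤ (Lam N) (t * latI N)
      = ∑ i, (equivInt N ((t * latI N) (basisZ N i))) i := by
    rw [LinearMap.trace_eq_matrix_trace ℤ (basisZ N), Matrix.trace]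
    refine Finset.sum_congr rfl fun i _ => ?_
    rw [Matrix.diag_apply, LinearMap.toMatrix_apply]
    rfl
  have e2 : LinearMap.trace ℂ _ τ = ∑ i, (equivComplex N (τ (basisC N i))) i := by
    rw [LinearMap.trace_eq_matrix_trace ℂ (basisC N), Matrix.trace]
    refine Finset.sum_congr rfl fun i _ => ?_
    rw [Matrix.diag_apply, LinearMap.toMatrix_apply]
    rfl
  have e3 : (LinearMap.trace ℤ (Lam N) (t * latI N) : ℂ) = LinearMap.trace ℂ _ τ := by
    rw [e1, e2, Int.cast_sum]
    refine Finset.sum_congr rfl fun i _ => ?_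
    rw [basisC_eq, key, equivComplex_latCpar]
  rw [hτtr] at e3
  exact_mod_cast e3

/-- the same with the involution on the left -/
theorem trace_latI_mul (t : Module.End ℤ (Lam N)) (ht : t ∈ latAlg N) :
    LinearMap.trace ℤ (Lam N) (latI N * t) = 0 := by
  rw [LinearMap.trace_mul_comm]
  exact trace_mul_latI N t ht

/-- `latI` commutes with the whole Hecke ring of the lattice. -/
theorem latI_commute (t : Module.End ℤ (Lam N)) (ht : t ∈ latAlg N) :
    latI N * t = t * latI N := by
  refine Algebra.adjoin_induction (p := fun x _ => latI N * x = x * latI N) ?_ ?_ ?_ ?_ ht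
  · rintro x ⟨l, rfl⟩
    refine LinearMap.ext fun Φ => ?_
    exact (latT_latI N l Φ).symm
  · intro r
    exact (Algebra.commutes r (latI N)).symm
  · intro x y _ _ hx hy
    rw [mul_add, add_mul, hx, hy]
  · intro x y _ _ hx hy
    rw [← mul_assoc, hx, mul_assoc, hy, mul_assoc]

end

end Fermat.Agent.GK.TraceInvol
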